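import Fermat.Agent.FF19.G0.Interface
import Fermat.Agent.INJ.All

/-!
# FF19 / G0 : (S7) every finite dimensional `K`-subspace of `F` has an orthonormal basis
(task FFG-24, helper2)
-/

set_option autoImplicit false

namespace Fermat.Agent.FF19.G0

open Polynomial IntermediateField
open scoped IntermediateField.algebraAdjoinAdjoin
open Fermat.Agent.INJ (RedData IsInt Chart)

section Aux

variable {K F k κ : Type} [Field K] [Field F] [Algebra K F] [Field k] [Field κ] [Algebra k κ]
  {D : RedData K F k κ} {T : F}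

theorem Basis_isInt_aeval (P : K[X]) : IsInt K T (aeval T P) :=
  INJ.P6_isInt_of_mem (by rw [Algebra.adjoin_singleton_eq_range_aeval]; exact ⟨P, rfl⟩)

/-- every element of `F` has a nonzero polynomial multiple which is integral over `K[T]`. -/
theorem Basis_exists_mul [FiniteDimensional K⟮T⟯ F] (y : F) :
    ∃ P : K[X], P ≠ 0 ∧ IsInt K T (aeval T P * y) := by
  have halg : IsAlgebraic (Algebra.adjoin K {T}) y :=
    (IsFractionRing.isAlgebraic_iff (Algebra.adjoin K {T}) K⟮T⟯ F).2
      (Algebra.IsAlgebraic.isAlgebraic y)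
  obtain ⟨⟨r, hr⟩, hr0, hint⟩ := halg.exists_integral_multiple
  have hr' := hr
  rw [Algebra.adjoin_singleton_eq_range_aeval] at hr'
  obtain ⟨P, hP⟩ := hr'
  have hP' : aeval T P = r := hP
  refine ⟨P, ?_, ?_⟩
  · rintro rfl
    apply hr0
    apply Subtype.ext
    show r = 0
    rw [← hP']
    simp
  · rw [hP']
    exact hint

/-- a common denominator for a finite set, which is a unit of `O`. -/
theorem Basis_denom (ht : T ∈ D.O) (htr : Transcendental k (D.rd T)) [FiniteDimensional K⟮T⟯ F]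
    (S : Finset F) :
    ∃ q : F, q ∈ D.O ∧ D.rd q ≠ 0 ∧ ∀ v ∈ S, IsInt K T (q * v) := by
  classical
  choose P hP0 hP using fun y : F => Basis_exists_mul (K := K) (T := T) y
  have hprod : (∏ v ∈ S, P v) ≠ 0 := Finset.prod_ne_zero_iff.2 fun v _ => hP0 v
  obtain ⟨a, Q, ha, hPQ, hQ⟩ := (INJ.stmt_Gauss K F k κ D T ht htr).2.2.1 _ hprod
  obtain ⟨hQ1, hQ2⟩ := (INJ.stmt_Gauss K F k κ D T ht htr).1 Q
  refine ⟨aeval T (Q.map D.A.subtype), hQ1, ?_, ?_⟩
  · rw [hQ2]
    intro h0
    exact hQ ((transcendental_iff.1 htr) _ h0)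
  · intro v hv
    have e1 : aeval T (Q.map D.A.subtype) * v =
        aeval T (C a⁻¹ * ∏ w ∈ S.erase v, P w) * (aeval T (P v) * v) := by
      have h1 : ∏ w ∈ S, P w = P v * ∏ w ∈ S.erase v, P w := (Finset.mul_prod_erase S P hv).symm
      have h2 : Q.map D.A.subtype = C a⁻¹ * (P v * ∏ w ∈ S.erase v, P w) := by
        rw [← h1, hPQ, ← mul_assoc, ← C_mul, inv_mul_cancel₀ ha, C_1, one_mul]
      rw [h2]
      simp only [map_mul]
      ring
    rw [e1]
    exact IsIntegral.mul (Basis_isInt_aeval _) (hP v)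

/-- expansion of an integral element in the basis of P6. -/
theorem Basis_expand {N : ℕ} (bb : Fin N → F)
    (hspan : ∀ x, IsInt K T x → x ∈ Submodule.span (Algebra.adjoin K {T}) (Set.range bb))
    (x : F) (hx : IsInt K T x) : ∃ g : Fin N → K[X], x = ∑ i, aeval T (g i) * bb i := by
  obtain ⟨f, hf⟩ := (Submodule.mem_span_range_iff_exists_fun _).1 (hspan x hx)
  have h : ∀ i, ∃ P : K[X], aeval T P = (f i : F) := by
    intro i
    obtain ⟨y, hy⟩ := f i
    have h1 := hy
    rw [Algebra.adjoin_singleton_eq_range_aeval] at h1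
    exact h1
  choose g hg using h
  refine ⟨g, ?_⟩
  rw [← hf]
  refine Finset.sum_congr rfl fun i _ => ?_
  rw [hg]
  rfl

/-- the `K`-linear map `K ^ (N d) → F` attached to the family `T ^ j * bb i`. -/
noncomputable def Basis_Phi (K : Type) {F : Type} [Field K] [Field F] [Algebra K F] (T : F) {N : ℕ}
    (bb : Fin N → F) (d : ℕ) : (Fin (N * d) → K) →ₗ[K] F :=
  Fintype.linearCombination K (fun e : Fin (N * d) =>
    T ^ ((finProdFinEquiv.symm e).2 : ℕ) * bb (finProdFinEquiv.symm e).1)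

theorem Basis_Phi_apply {N : ℕ} (bb : Fin N → F) (d : ℕ) (w : Fin (N * d) → K) :
    Basis_Phi K T bb d w = ∑ ij : Fin N × Fin d,
      algebraMap K F (w (finProdFinEquiv ij)) * (T ^ (ij.2 : ℕ) * bb ij.1) := by
  rw [Basis_Phi, Fintype.linearCombination_apply, ← finProdFinEquiv.sum_comp]
  refine Finset.sum_congr rfl fun ij _ => ?_
  rw [Equiv.symm_apply_apply, Algebra.smul_def]

theorem Basis_mem_range {N : ℕ} (bb : Fin N → F) (d : ℕ) (g : Fin N → K[X])
    (hg : ∀ i, (g i).natDegree < d) :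
    (∑ i, aeval T (g i) * bb i) ∈ LinearMap.range (Basis_Phi K T bb d) := by
  refine ⟨fun e => (g (finProdFinEquiv.symm e).1).coeff ((finProdFinEquiv.symm e).2 : ℕ), ?_⟩
  rw [Basis_Phi_apply, Fintype.sum_prod_type]
  refine Finset.sum_congr rfl fun i _ => ?_
  rw [aeval_eq_sum_range' (hg i), Finset.sum_range, Finset.sum_mul]
  refine Finset.sum_congr rfl fun j _ => ?_
  rw [Equiv.symm_apply_apply, Algebra.smul_def, mul_assoc]

theorem Basis_ra_one : D.ra 1 = 1 := by
  rw [RedData.ra_of_mem D.A.one_mem]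
  exact map_one D.rA

theorem Basis_ra_zero : D.ra 0 = 0 := by
  rw [RedData.ra_of_mem D.A.zero_mem]
  exact map_zero D.rA

end Aux

theorem stmt_Basis (h1 : Stmt_Ech) (h2 : Stmt_Mono) : Stmt_Basis := by
  intro K F k κ _ _ _ _ _ _ _ _ D T hC V hV
  classical
  have ht := hC.t_mem
  have htr := hC.trans
  have hfin := hC.fin
  obtain ⟨bb, hbb, hspan, hli⟩ := INJ.all_BBasis K F k κ D T hC
  generalize Module.finrank K⟮T⟯ F = N at bb hbb hspan hli
  obtain ⟨S, hS⟩ : V.FG := (Submodule.fg_iff_finiteDimensional V).2 hV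
  obtain ⟨q, hqO, hq0, hqS⟩ := Basis_denom ht htr S
  have hq0' : q ≠ 0 := by
    rintro rfl
    exact hq0 RedData.rd_zero
  have hqinv : q⁻¹ ∈ D.O := RedData.inv_mem_of_rd_ne_zero hq0
  -- expansions
  have hex : ∀ v : F, ∃ g : Fin N → K[X], v ∈ S → q * v = ∑ i, aeval T (g i) * bb i := by
    intro v
    by_cases hv : v ∈ S
    · obtain ⟨g, hg⟩ := Basis_expand bb hspan _ (hqS v hv)
      exact ⟨g, fun _ => hg⟩
    · exact ⟨0, fun h => absurd h hv⟩
  choose g hg using hex
  obtain ⟨d, hdeg⟩ : ∃ d : ℕ, ∀ v ∈ S, ∀ i, (g v i).natDegree < d := by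
    refine ⟨(S.sup fun v => Finset.univ.sup fun i => (g v i).natDegree) + 1, fun v hv i => ?_⟩
    have e1 : (g v i).natDegree ≤ Finset.univ.sup fun i => (g v i).natDegree :=
      Finset.le_sup (f := fun i => (g v i).natDegree) (Finset.mem_univ i)
    have e2 : (Finset.univ.sup fun i => (g v i).natDegree) ≤
        S.sup fun v => Finset.univ.sup fun i => (g v i).natDegree :=
      Finset.le_sup (f := fun v => Finset.univ.sup fun i => (g v i).natDegree) hv
    omega
  -- `q V ⊆ range Φ`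
  have hrange : ∀ v ∈ V, q * v ∈ LinearMap.range (Basis_Phi K T bb d) := by
    have hle : V ≤ (LinearMap.range (Basis_Phi K T bb d)).comap (LinearMap.mulLeft K q) := by
      rw [← hS, Submodule.span_le]
      intro v hv
      show q * v ∈ LinearMap.range (Basis_Phi K T bb d)
      rw [hg v hv]
      exact Basis_mem_range bb d (g v) (hdeg v hv)
    intro v hv
    exact hle hv
  obtain ⟨r, v, p, hvW, hvA, hvp, hW⟩ :=
    h1 K D.A (N * d) ((V.map (LinearMap.mulLeft K q)).comap (Basis_Phi K T bb d))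
  obtain ⟨hM1, hM2⟩ := h2 K F k κ D T ht htr N bb (fun i => (hbb i).1) hli d
  have hmon : ∀ ij : Fin N × Fin d, T ^ (ij.2 : ℕ) * bb ij.1 ∈ D.O := fun ij =>
    mul_mem (pow_mem ht _) (hbb ij.1).1
  have hPhiO : ∀ i, Basis_Phi K T bb d (v i) ∈ D.O := by
    intro i
    rw [Basis_Phi_apply]
    exact RedData.sum_mem _ _ fun ij _ => mul_mem (RedData.algebraMap_mem (hvA i _)) (hmon ij)
  have hPhird : ∀ i, D.rd (Basis_Phi K T bb d (v i)) = ∑ ij : Fin N × Fin d,
      D.ra (v i (finProdFinEquiv ij)) • (D.rd T ^ (ij.2 : ℕ) * D.rd (bb ij.1)) := by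
    intro i
    rw [Basis_Phi_apply, RedData.rd_sum _ _ fun ij _ =>
      mul_mem (RedData.algebraMap_mem (hvA i _)) (hmon ij)]
    refine Finset.sum_congr rfl fun ij _ => ?_
    rw [RedData.rd_mul (RedData.algebraMap_mem (hvA i _)) (hmon ij),
      RedData.rd_algebraMap (hvA i _), RedData.rd_mul (pow_mem ht _) (hbb ij.1).1,
      RedData.rd_pow ht, Algebra.smul_def]
  refine ⟨r, fun i => q⁻¹ * Basis_Phi K T bb d (v i), fun i => ⟨?_, mul_mem hqinv (hPhiO i)⟩,
    ?_, ?_⟩
  · obtain ⟨x, hxV, hx⟩ := hvW i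
    have hx' : q * x = Basis_Phi K T bb d (v i) := hx
    show q⁻¹ * Basis_Phi K T bb d (v i) ∈ V
    rw [← hx', inv_mul_cancel_left₀ hq0']
    exact hxV
  · rw [Fintype.linearIndependent_iff]
    intro l hl i'
    have e1 : ∑ ij : Fin N × Fin d, (∑ i, l i * D.ra (v i (finProdFinEquiv ij))) •
        (D.rd T ^ (ij.2 : ℕ) * D.rd (bb ij.1)) = 0 := by
      have e2 : ∑ i, l i • D.rd (Basis_Phi K T bb d (v i)) = 0 := by
        have e3 : D.rd q * ∑ i, l i • D.rd (q⁻¹ * Basis_Phi K T bb d (v i)) = 0 := by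
          rw [hl, mul_zero]
        rw [Finset.mul_sum] at e3
        rw [← e3]
        refine Finset.sum_congr rfl fun i _ => ?_
        rw [RedData.rd_mul hqinv (hPhiO i), RedData.rd_inv hq0, mul_smul_comm,
          mul_inv_cancel_left₀ hq0]
      rw [← e2]
      simp only [hPhird, Finset.smul_sum, Finset.sum_smul, mul_smul]
      exact Finset.sum_comm
    have e4 := Fintype.linearIndependent_iff.1 hM1 _ e1 (finProdFinEquiv.symm (p i'))
    rw [Equiv.apply_symm_apply] at e4
    simp only [hvp] at e4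
    rw [Finset.sum_eq_single i'] at e4
    · rw [if_pos rfl, Basis_ra_one, mul_one] at e4
      exact e4
    · intro i _ hi
      rw [if_neg hi, Basis_ra_zero, mul_zero]
    · intro h
      exact absurd (Finset.mem_univ i') h
  · intro x hxV
    obtain ⟨w, hw⟩ := hrange x hxV
    have hwW : w ∈ (V.map (LinearMap.mulLeft K q)).comap (Basis_Phi K T bb d) :=
      ⟨x, hxV, hw.symm⟩
    have hw2 := hW w hwW
    refine ⟨fun i => w (p i), ?_, ?_⟩
    · have e1 : q * x = ∑ i, w (p i) • Basis_Phi K T bb d (v i) := by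
        rw [← hw]
        conv_lhs => rw [hw2]
        rw [map_sum]
        refine Finset.sum_congr rfl fun i _ => ?_
        rw [map_smul]
      have e2 : x = q⁻¹ * (q * x) := by rw [inv_mul_cancel_left₀ hq0']
      rw [e2, e1, Finset.mul_sum]
      refine Finset.sum_congr rfl fun i _ => ?_
      rw [Algebra.smul_def]
      ring
    · intro hxO i
      have e1 : Basis_Phi K T bb d w ∈ D.O := by
        rw [hw]
        exact mul_mem hqO hxO
      rw [Basis_Phi_apply] at e1
      have e2 : w (finProdFinEquiv (finProdFinEquiv.symm (p i))) ∈ D.A :=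
        hM2 (fun ij => w (finProdFinEquiv ij)) e1 (finProdFinEquiv.symm (p i))
      rwa [Equiv.apply_symm_apply] at e2

end Fermat.Agent.FF19.G0
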