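import Fermat.Agent.FF19.G0.Interface

/-!
# FF19 / G0 : FFG-Ech, reduced echelon bases with entries in a valuation subring.
-/

set_option autoImplicit false

namespace Fermat.Agent.FF19.G0

theorem Ech_aux (K : Type) [Field K] (A : ValuationSubring K) (m : ℕ) :
    ∀ (d : ℕ) (V : Submodule K (Fin m → K)), Module.finrank K V = d →
    ∃ (r : ℕ) (v : Fin r → Fin m → K) (p : Fin r → Fin m), (∀ i, v i ∈ V) ∧ (∀ i j, v i j ∈ A) ∧
      (∀ i i', v i (p i') = if i = i' then 1 else 0) ∧ ∀ w ∈ V, w = ∑ i, w (p i) • v i := by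
  intro d
  induction d using Nat.strong_induction_on with
  | _ d ih =>
    intro V hV
    by_cases hbot : V = ⊥
    · subst hbot
      refine ⟨0, Fin.elim0, Fin.elim0, fun i => i.elim0, fun i => i.elim0, fun i => i.elim0, ?_⟩
      intro w hw
      simpa using hw
    · obtain ⟨v₀, hv₀, hne⟩ := Submodule.exists_mem_ne_zero_of_ne_bot hbot
      obtain ⟨j₀, hj₀⟩ : ∃ j, v₀ j ≠ 0 := by
        by_contra hcon
        push Not at hcon
        exact hne (funext hcon)
      obtain ⟨p₀, -, hp₀⟩ := Finset.exists_max_image (Finset.univ : Finset (Fin m))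
        (fun j => A.valuation (v₀ j)) ⟨j₀, Finset.mem_univ _⟩
      have hp₀ne : v₀ p₀ ≠ 0 := by
        intro h0
        have h1 := hp₀ j₀ (Finset.mem_univ _)
        rw [h0, map_zero] at h1
        exact hj₀ ((map_eq_zero _).1 (le_antisymm h1 zero_le))
      set u : Fin m → K := (v₀ p₀)⁻¹ • v₀ with hu
      have huV : u ∈ V := V.smul_mem _ hv₀
      have hup : u p₀ = 1 := by
        rw [hu, Pi.smul_apply, smul_eq_mul, inv_mul_cancel₀ hp₀ne]
      have huA : ∀ j, u j ∈ A := by
        intro j
        rw [← ValuationSubring.valuation_le_one_iff, hu, Pi.smul_apply, smul_eq_mul, map_mul,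
          map_inv₀]
        have hpos : 0 < A.valuation (v₀ p₀) := zero_lt_iff.2 ((map_ne_zero _).2 hp₀ne)
        rw [inv_mul_le_iff₀ hpos, mul_one]
        exact hp₀ j (Finset.mem_univ _)
      set V' : Submodule K (Fin m → K) := V ⊓ LinearMap.ker (LinearMap.proj (R := K) p₀) with hV'
      have hmem' : ∀ w, w ∈ V' ↔ w ∈ V ∧ w p₀ = 0 := by
        intro w
        rw [hV', Submodule.mem_inf, LinearMap.mem_ker, LinearMap.proj_apply]
      have hlt : V' < V := by
        refine lt_of_le_of_ne inf_le_left ?_
        intro heq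
        have : u ∈ V' := by rw [heq]; exact huV
        have h0 := ((hmem' u).1 this).2
        rw [hup] at h0
        exact one_ne_zero h0
      have hfr : Module.finrank K V' < d := by
        rw [← hV]
        exact Submodule.finrank_lt_finrank_of_lt hlt
      obtain ⟨r, v, p, hvV, hvA, hvp, hsp⟩ := ih _ hfr V' rfl
      have hv0 : ∀ i, v i p₀ = 0 := fun i => ((hmem' _).1 (hvV i)).2
      set u' : Fin m → K := u - ∑ i, u (p i) • v i with hu'
      have hu'V : u' ∈ V :=
        V.sub_mem huV (V.sum_mem fun i _ => V.smul_mem _ ((hmem' _).1 (hvV i)).1)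
      have hu'app : ∀ j, u' j = u j - ∑ i, u (p i) * v i j := by
        intro j
        rw [hu', Pi.sub_apply, Finset.sum_apply]
        rfl
      have hu'A : ∀ j, u' j ∈ A := by
        intro j
        rw [hu'app]
        exact sub_mem (huA j) (sum_mem fun i _ => mul_mem (huA _) (hvA i j))
      have hu'p₀ : u' p₀ = 1 := by
        rw [hu'app, hup]
        simp [hv0]
      have hu'p : ∀ i', u' (p i') = 0 := by
        intro i'
        rw [hu'app]
        simp [hvp]
      refine ⟨r + 1, Fin.cons u' v, Fin.cons p₀ p, ?_, ?_, ?_, ?_⟩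
      · intro i
        refine Fin.cases ?_ (fun i => ?_) i
        · exact hu'V
        · exact ((hmem' _).1 (hvV i)).1
      · intro i
        refine Fin.cases ?_ (fun i => ?_) i
        · exact hu'A
        · exact hvA i
      · intro i i'
        refine Fin.cases ?_ (fun i => ?_) i <;> refine Fin.cases ?_ (fun i' => ?_) i'
        · simpa using hu'p₀
        · simpa [Fin.succ_ne_zero, eq_comm] using hu'p i'
        · simpa [Fin.succ_ne_zero] using hv0 i
        · simpa [Fin.succ_inj] using hvp i i'
      · intro w hw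
        have hw' : w - w p₀ • u' ∈ V' := by
          rw [hmem']
          refine ⟨V.sub_mem hw (V.smul_mem _ hu'V), ?_⟩
          rw [Pi.sub_apply, Pi.smul_apply, hu'p₀, smul_eq_mul, mul_one, sub_self]
        have h1 := hsp _ hw'
        have h2 : ∀ i, (w - w p₀ • u') (p i) = w (p i) := by
          intro i
          rw [Pi.sub_apply, Pi.smul_apply, hu'p, smul_zero, sub_zero]
        simp only [h2] at h1
        rw [Fin.sum_univ_succ]
        simp only [Fin.cons_zero, Fin.cons_succ]
        rw [← h1]
        abel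

theorem stmt_Ech : Stmt_Ech := fun K _ A m V => Ech_aux K A m _ V rfl

end Fermat.Agent.FF19.G0
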