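import Fermat.Agent.FF19.G0.Interface
import Fermat.Agent.S24.PlaceBasic

/-!
# FF19 / G0 : FFG-8, divisors of functions exist (helper99)
-/

set_option autoImplicit false

namespace Fermat.Agent.FF19.G0

open AlgebraicCurve
open Fermat.Agent

theorem stmt_FinSupp : Stmt_FinSupp := by
  intro K F _ _ _ T hPF f hf
  classical
  have hfin : ({P : Place K F | f ∉ P.toValuationSubring} ∪
      {P : Place K F | f⁻¹ ∉ P.toValuationSubring}).Finite := (hPF.fin f).union (hPF.fin f⁻¹)
  refine ⟨Finsupp.onFinset hfin.toFinset (fun P => P.ord f) ?_, fun P => rfl⟩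
  intro P hP
  rw [Set.Finite.mem_toFinset]
  by_contra hcon
  simp only [Set.mem_union, Set.mem_setOf_eq, not_or, not_not] at hcon
  have h1 := S24.ord_nonneg_of_mem P hcon.1
  have h2 := S24.ord_nonneg_of_mem P hcon.2
  rw [Place.ord_inv] at h2
  exact hP (by omega)

end Fermat.Agent.FF19.G0
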