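import Fermat.Agent.FF19.G0.Interface
import Fermat.Agent.INJ.P9b

/-!
# FF19 / G0 : FFG-9, gluing of the two charts (task 1845)
-/

set_option autoImplicit false

namespace Fermat.Agent.FF19.G0

open AlgebraicCurve Polynomial IntermediateField
open Fermat.Agent.INJ (RedData IsInt Chart Branch Arch)
open Fermat.Agent.RED (Ev)
open Fermat.Agent.MR
open Fermat.Agent.MR.Node (BB Rs ns IsPt IsUnifAt Compat Std)

/-- an element of a valuation ring whose inverse also lies in it has norm one. -/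
theorem Glue_val_eq_one {κ : Type} [Field κ] (x : ValuationSubring κ) {a b : κ} (ha : a ∈ x)
    (hb : b ∈ x) (hab : a * b = 1) : x.valuation a = 1 := by
  have h1 : x.valuation a ≤ 1 := (x.valuation_le_one_iff a).2 ha
  have h2 : x.valuation b ≤ 1 := (x.valuation_le_one_iff b).2 hb
  refine le_antisymm h1 ?_
  calc (1 : x.ValueGroup) = x.valuation (a * b) := by rw [hab, map_one]
    _ = x.valuation a * x.valuation b := map_mul _ _ _
    _ ≤ x.valuation a * 1 := by gcongr
    _ = x.valuation a := mul_one _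

theorem stmt_Glue (h1 : Stmt_Std) (h2 : Stmt_SpCen) : Stmt_Glue := by
  intro K F k κ _ _ _ _ _ _ _ _ _ D t hM P x hSp hinv
  have hStd := h1 K F k κ D t hM.chart hM.branch hM.arch
  obtain ⟨ha, hb, -⟩ := h2 K F k κ D t hStd.compat P x
  have hCen := ha hSp
  have ht0 : t ≠ 0 := by
    rintro rfl
    exact hM.chart.trans (by rw [RedData.rd_zero]; exact isAlgebraic_zero)
  have hmul : D.rd t * D.rd t⁻¹ = 1 := by
    rw [← RedData.rd_mul hM.chart.t_mem hM.chart'.t_mem, mul_inv_cancel₀ ht0, RedData.rd_one]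
  have hval : x.toValuationSubring.valuation (D.rd t) = 1 :=
    Glue_val_eq_one x.toValuationSubring hSp.1 hinv hmul
  refine ⟨hinv, fun z hz hzint => hb hSp.1 hCen z ?_⟩
  obtain ⟨c, hc⟩ := INJ.stmt_Clear K F t z ht0 hzint
  have htO : t ^ c ∈ D.O := pow_mem hM.chart.t_mem c
  refine ⟨t ^ c * z, ⟨hc c le_rfl, mul_mem htO hz, mul_mem htO hz⟩, t ^ c,
    pow_mem hStd.T_mem c, ?_, mul_comm _ _⟩
  rw [RedData.rd_pow hM.chart.t_mem, map_pow, hval, one_pow]

end Fermat.Agent.FF19.G0

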