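import Fermat.Agent.FF19.G0.Interface

/-!
# FF19 / G0 : (S7'') the lattice `L(E) ∩ O`
-/

set_option autoImplicit false

namespace Fermat.Agent.FF19.G0

open AlgebraicCurve
open Fermat.Agent.INJ (RedData)

/-- lifts of `k`-independent elements are `K`-independent. -/
theorem LBasis_indep {K F k κ : Type} [Field K] [Field F] [Algebra K F] [Field k] [Field κ]
    [Algebra k κ] (D : RedData K F k κ) (n : ℕ) (b : Fin n → F) (hb : ∀ i, b i ∈ D.O)
    (hli : LinearIndependent k (fun i => D.rd (b i))) : LinearIndependent K b := by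
  classical
  rw [Fintype.linearIndependent_iff]
  intro g hg
  by_contra hne
  push Not at hne
  obtain ⟨i₀, hi₀⟩ := hne
  obtain ⟨j, -, hj⟩ := Finset.exists_max_image Finset.univ (fun i => D.A.valuation (g i))
    ⟨i₀, Finset.mem_univ _⟩
  have hgj : g j ≠ 0 := by
    intro h0
    have h1 := hj i₀ (Finset.mem_univ _)
    rw [h0, map_zero] at h1
    exact hi₀ ((map_eq_zero _).1 (le_antisymm h1 zero_le))
  have hmem : ∀ i, g i / g j ∈ D.A := by
    intro i
    rw [← ValuationSubring.valuation_le_one_iff, map_div₀]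
    exact div_le_one_of_le₀ (hj i (Finset.mem_univ _)) zero_le
  have hsum : ∑ i, algebraMap K F (g i / g j) * b i = 0 := by
    have h1 : ∑ i, algebraMap K F (g i / g j) * b i = (g j)⁻¹ • ∑ i, g i • b i := by
      rw [Finset.smul_sum]
      refine Finset.sum_congr rfl fun i _ => ?_
      rw [smul_smul, Algebra.smul_def, div_eq_inv_mul]
    rw [h1, hg, smul_zero]
  have hred : ∑ i, D.ra (g i / g j) • D.rd (b i) = 0 := by
    have h1 := congrArg D.rd hsum
    rw [RedData.rd_sum _ _ (fun i _ => mul_mem (RedData.algebraMap_mem (hmem i)) (hb i)),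
      RedData.rd_zero] at h1
    rw [← h1]
    refine Finset.sum_congr rfl fun i _ => ?_
    rw [RedData.rd_mul (RedData.algebraMap_mem (hmem i)) (hb i), RedData.rd_algebraMap (hmem i),
      Algebra.smul_def]
  have h2 := (Fintype.linearIndependent_iff.1 hli) _ hred j
  rw [div_self hgj] at h2
  have h3 : D.ra (1 : K) = 1 := by
    rw [RedData.ra_of_mem D.A.one_mem]
    exact map_one D.rA
  rw [h3] at h2
  exact one_ne_zero h2

/-- **(S7'')** -/
theorem stmt_LBasis (h1 : Stmt_Basis) (h2 : Stmt_LRed) : Stmt_LBasis := by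
  intro K F k κ _ _ _ _ _ _ _ _ _ D t hM E hfin
  obtain ⟨n, b, hb, hli, hgen⟩ := h1 K F k κ D t hM.chart (riemannRochSpace E) hfin
  have hK : LinearIndependent K b := LBasis_indep D n b (fun i => (hb i).2) hli
  refine ⟨n, b, fun i => ⟨(hb i).1, (hb i).2, h2 K F k κ D t hM E (b i) (hb i).1 (hb i).2⟩, hli, hK,
    ?_, hgen⟩
  have hspan : Submodule.span K (Set.range b) = riemannRochSpace E := by
    apply le_antisymm
    · rw [Submodule.span_le]
      rintro _ ⟨i, rfl⟩
      exact (hb i).1
    · intro v hv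
      obtain ⟨c, rfl, -⟩ := hgen v hv
      refine Submodule.sum_mem _ fun i _ => ?_
      rw [← Algebra.smul_def]
      exact Submodule.smul_mem _ _ (Submodule.subset_span ⟨i, rfl⟩)
  rw [← hspan, finrank_span_eq_card hK, Fintype.card_fin]

end Fermat.Agent.FF19.G0

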