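import Fermat.Agent.FF19.G0.Interface

/-!
# FF19 / G0 : (S7') `rd (L(E) ∩ O) ⊆ L̄ (sp_* E)`  (helper30)
-/

set_option autoImplicit false

namespace Fermat.Agent.FF19.G0

open AlgebraicCurve Polynomial IntermediateField
open Fermat.Agent.INJ (RedData IsInt Chart Branch Arch)
open Fermat.Agent.RED (Ev)
open Fermat.Agent.MR
open Fermat.Agent.MR.Node (BB Rs ns IsPt IsUnifAt Compat Std)

theorem stmt_LRed (h1 : Stmt_Std) (h2 : Stmt_FinSupp) (h3 : Stmt_Ord) (h4 : Stmt_spD) :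
    Stmt_LRed := by
  intro K F k κ _ _ _ _ _ _ _ _ _ D t hM E f hf hfO
  rw [mem_riemannRochSpace_iff]
  intro x
  by_cases hrd : D.rd f = 0
  · exact Or.inl hrd
  right
  have hf0 : f ≠ 0 := by
    rintro rfl
    exact hrd RedData.rd_zero
  have hStd := h1 K F k κ D t hM.chart hM.branch hM.arch
  obtain ⟨Ef, hEf⟩ := h2 K F t hStd.places f hf0
  obtain ⟨s1, -, s3, -⟩ := h4 K F k κ D t hM
  have hpos : 0 ≤ Ef + E := by
    intro P
    rw [Finsupp.add_apply, hEf P]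
    have h6 := (mem_riemannRochSpace_iff.1 hf P).resolve_left hf0
    show (0 : ℤ) ≤ _
    omega
  have h5 := s3 _ hpos x
  rw [map_add, Finsupp.add_apply, s1 Ef x, h3 K F k κ D t hM f Ef hrd hEf x] at h5
  have h7 : (0 : ℤ) ≤ x.ord (D.rd f) + spD D t E x := h5
  omega

end Fermat.Agent.FF19.G0
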