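import Fermat.Agent.FF19.G0.Interface
import Fermat.Agent.MR.Node.PtRes
import Fermat.Agent.MR.Node.RingR
import Fermat.Agent.MR.Node.ValA
import Fermat.Agent.MR.Node.Kill
import Fermat.Agent.MR.Node.Reg
import Fermat.Agent.MR.Node.SepUnif
import Fermat.Agent.MR.Node.FG
import Fermat.Agent.MR.Node.Loc

/-!
# FF19 / G0, task FFG-03 : `PL.LocData` at every point of a chart of a one-component model
(copy of `Node.smoothLoc` with `D₂ = D₁ = D`).
-/

set_option autoImplicit false

namespace Fermat.Agent.FF19.G0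

open AlgebraicCurve Polynomial IntermediateField
open Fermat.Agent.INJ (RedData IsInt Chart Branch Arch)
open Fermat.Agent.RED (Ev)
open Fermat.Agent.MR
open Fermat.Agent.MR.Node (BB Rs ns IsPt IsUnifAt Compat Std)

/-- **FFG-03**. -/
theorem stmt_Loc (h : Stmt_N1s) : Stmt_Loc := by
  intro K F k κ _ _ _ _ _ _ _ D T τ hS x₁ hpt hτ ϑ hϑ hU
  obtain ⟨RF, hdom, hBBR⟩ := Node.ringR Node.ptRes K F k κ D D T τ hS.compat x₁ hpt hτ
  obtain ⟨m, bs, hbs, hspan⟩ := hS.fin
  have hVal := Node.valA K F k κ D D T m bs hbs hspan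
  have hK := Node.kill Node.ptRes (Node.ringR Node.ptRes) K F k κ D D T τ hS.compat hS.T_mem
    hS.places hVal x₁ hpt hτ
  have hR := Node.reg K F k κ D D T τ hS.compat hS.T_mem hS.places x₁ hpt hτ hK
  obtain ⟨hsep, hunif⟩ := Node.sepUnif K F k κ D D T τ hS.compat hS.T_mem hS.places x₁ hpt hτ
  have hϑn : ϑ ∈ ns D D T x₁ := by
    rw [(hdom ϑ (hBBR ϑ hϑ)).2]
    exact hU.2.1
  exact
    { n_sub := RF.n_sub
      n_add := RF.n_add
      n_mul := RF.n_mul
      one_not_mem := RF.one_not_mem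
      inv_mem := RF.inv_mem
      const_mem := RF.const_mem
      le₁ := RF.le₁
      le₂ := RF.le₁
      small₁ := RF.small₁
      small₂ := RF.small₁
      res := RF.res
      a_mem := hϑn
      b_mem := hϑn
      gen := by
        rintro x ⟨u, hu, v, hv, hv1, hu1, hxv⟩
        obtain ⟨s, hs, z₁, hz₁, z₃, hz₃, c, hc, hs1, he⟩ :=
          h K F k κ D T τ hS.compat x₁ hpt hτ ϑ hϑ hU u hu hu1
        refine ⟨z₁ / (s * v), Node.Loc_div_mem hz₁ hs hv hs1 hv1, 0, Subring.zero_mem _,
          z₃ / (s * v), Node.Loc_div_mem hz₃ hs hv hs1 hv1, c, hc, ?_⟩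
        have hs0 := Node.Loc_ne_zero hs1
        have hv0 := Node.Loc_ne_zero hv1
        have hsv : s * v ≠ 0 := mul_ne_zero hs0 hv0
        have e1 : x * (s * v) = ϑ * z₁ + algebraMap K F c * z₃ := by
          rw [← he, ← hxv]; ring
        rw [mul_zero, add_zero, mul_div_assoc', mul_div_assoc', ← add_div, ← e1,
          mul_div_cancel_right₀ _ hsv]
      fg := Node.fg K F k κ D D T m bs hS.T_mem hbs hspan x₁
      reg := fun x hx _ hP => hR x hx hx hP
      sep := hsep
      unif := hunif }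

end Fermat.Agent.FF19.G0
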