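import Fermat.Agent.FF19.G0.Interface

/-!
# FF19 / G0 : `Stmt_Mono` (the family `T ^ j * b i` is orthonormal over `K`)
-/

set_option autoImplicit false

noncomputable section

namespace Fermat.Agent.FF19.G0

open AlgebraicCurve IntermediateField Polynomial
open Fermat.Agent.INJ (RedData)

variable {K F k κ : Type*} [Field K] [Field F] [Algebra K F] [Field k] [Field κ] [Algebra k κ]

/-- a family of `D.O` with `k`-independent reductions is orthonormal. -/
theorem Mono_orth (D : RedData K F k κ) {ι : Type*} [Fintype ι] (e : ι → F) (he : ∀ i, e i ∈ D.O)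
    (hli : LinearIndependent k (fun i => D.rd (e i))) (c : ι → K)
    (hc : (∑ i, algebraMap K F (c i) * e i) ∈ D.O) : ∀ i, c i ∈ D.A := by
  classical
  by_contra hcon
  push Not at hcon
  obtain ⟨i₁, hi₁⟩ := hcon
  obtain ⟨i₀, -, hmax⟩ := Finset.exists_max_image Finset.univ (fun i => D.A.valuation (c i))
    ⟨i₁, Finset.mem_univ _⟩
  have hi₀ : c i₀ ∉ D.A := by
    intro h
    apply hi₁
    rw [← ValuationSubring.valuation_le_one_iff] at h ⊢
    exact (hmax i₁ (Finset.mem_univ _)).trans h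
  have hc0 : c i₀ ≠ 0 := by
    intro h
    exact hi₀ (h ▸ D.A.zero_mem)
  have ha : ∀ i, c i / c i₀ ∈ D.A := by
    intro i
    rw [← ValuationSubring.valuation_le_one_iff, map_div₀]
    have hpos : 0 < D.A.valuation (c i₀) := by
      rw [zero_lt_iff]
      exact (_root_.map_ne_zero _).2 hc0
    exact (div_le_one₀ hpos).2 (hmax i (Finset.mem_univ _))
  have hx : algebraMap K F (c i₀) ∉ D.O := fun h => hi₀ ((D.mem_iff _).1 h)
  obtain ⟨hx1, hx2⟩ := RedData.inv_mem_of_not_mem hx
  have hx0 : algebraMap K F (c i₀) ≠ 0 := (_root_.map_ne_zero _).2 hc0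
  have e1 : (algebraMap K F (c i₀))⁻¹ * (∑ i, algebraMap K F (c i) * e i) =
      ∑ i, algebraMap K F (c i / c i₀) * e i := by
    rw [Finset.mul_sum]
    refine Finset.sum_congr rfl fun i _ => ?_
    rw [map_div₀]
    field_simp
  have e2 : D.rd (∑ i, algebraMap K F (c i / c i₀) * e i) = 0 := by
    rw [← e1, RedData.rd_mul hx1 hc, hx2, zero_mul]
  rw [RedData.rd_sum _ _ (fun i _ => mul_mem (RedData.algebraMap_mem (ha i)) (he i))] at e2
  have e3 : ∑ i, D.ra (c i / c i₀) • D.rd (e i) = 0 := by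
    rw [← e2]
    refine Finset.sum_congr rfl fun i _ => ?_
    rw [RedData.rd_mul (RedData.algebraMap_mem (ha i)) (he i), RedData.rd_algebraMap (ha i),
      Algebra.smul_def]
  have e4 := Fintype.linearIndependent_iff.1 hli _ e3 i₀
  rw [div_self hc0, RedData.ra_of_mem D.A.one_mem] at e4
  have e5 : D.rA ⟨1, D.A.one_mem⟩ = 1 := map_one D.rA
  rw [e5] at e4
  exact one_ne_zero e4

/-- monomials times a `k(τ)`-independent family are `k`-independent. -/
theorem Mono_indep (τ : κ) (hτ : Transcendental k τ) (n : ℕ) (β : Fin n → κ)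
    (hβ : LinearIndependent k⟮τ⟯ β) (d : ℕ) :
    LinearIndependent k (fun ij : Fin n × Fin d => τ ^ (ij.2 : ℕ) * β ij.1) := by
  classical
  rw [Fintype.linearIndependent_iff]
  intro g hg
  rw [Fintype.sum_prod_type] at hg
  have h1 : ∑ i, (∑ j : Fin d, algebraMap k k⟮τ⟯ (g (i, j)) * (AdjoinSimple.gen k τ) ^ (j : ℕ)) • β i
      = 0 := by
    rw [← hg]
    refine Finset.sum_congr rfl fun i _ => ?_
    rw [Algebra.smul_def, map_sum, Finset.sum_mul]
    refine Finset.sum_congr rfl fun j _ => ?_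
    rw [map_mul, map_pow, AdjoinSimple.algebraMap_gen, ← IsScalarTower.algebraMap_apply,
      Algebra.smul_def, mul_assoc]
  have h2 := Fintype.linearIndependent_iff.1 hβ _ h1
  rintro ⟨i, j⟩
  have h3 := congrArg (algebraMap k⟮τ⟯ κ) (h2 i)
  rw [map_zero, map_sum] at h3
  have h4 : aeval τ (∑ j : Fin d, Polynomial.C (g (i, j)) * X ^ (j : ℕ)) = 0 := by
    rw [← h3, map_sum]
    refine Finset.sum_congr rfl fun j _ => ?_
    rw [map_mul, map_mul, map_pow, map_pow, aeval_C, aeval_X, AdjoinSimple.algebraMap_gen,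
      ← IsScalarTower.algebraMap_apply]
  have h5 := (transcendental_iff.1 hτ) _ h4
  have h6 := congrArg (fun p => Polynomial.coeff p (j : ℕ)) h5
  simp only [Polynomial.finsetSum_coeff, Polynomial.coeff_C_mul, Polynomial.coeff_X_pow,
    Polynomial.coeff_zero] at h6
  rw [Finset.sum_eq_single j] at h6
  · simpa using h6
  · intro j' _ hj'
    have : (j : ℕ) ≠ (j' : ℕ) := fun h => hj' (Fin.ext h.symm)
    simp [this]
  · intro h
    exact absurd (Finset.mem_univ _) h

theorem stmt_Mono : Stmt_Mono := by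
  intro K F k κ _ _ _ _ _ _ D T hT hτ n b hb hli d
  have h1 := Mono_indep (D.rd T) hτ n (fun i => D.rd (b i)) hli d
  refine ⟨h1, fun c hc => ?_⟩
  refine Mono_orth D (fun ij : Fin n × Fin d => T ^ (ij.2 : ℕ) * b ij.1)
    (fun ij => mul_mem (pow_mem hT _) (hb _)) ?_ c hc
  have e : (fun ij : Fin n × Fin d => D.rd (T ^ (ij.2 : ℕ) * b ij.1)) =
      fun ij : Fin n × Fin d => D.rd T ^ (ij.2 : ℕ) * D.rd (b ij.1) := by
    funext ij
    rw [RedData.rd_mul (pow_mem hT _) (hb _), RedData.rd_pow hT]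
  rw [e]
  exact h1

end Fermat.Agent.FF19.G0

end
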