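import Fermat.Agent.FF19.G0.Interface
import Fermat.Agent.MR.Node.N1
import Fermat.Agent.MR.Node.PtUnif
import Fermat.Agent.MR.Node.Small

/-!
# FF19 / G0 : FFG-2, (N1) at a point of a one-component model  (`stmt_N1s : Stmt_N1s`)
-/

set_option autoImplicit false

namespace Fermat.Agent.FF19.G0

open AlgebraicCurve Polynomial IntermediateField
open Fermat.Agent.INJ (RedData IsInt Chart Branch Arch)
open Fermat.Agent.MR
open Fermat.Agent.MR.Node (BB Rs ns IsPt IsUnifAt Compat Std)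

theorem stmt_N1s : Stmt_N1s := by
  intro K F k κ _ _ _ _ _ _ D T τ hC x₁ hx hτ ϑ hϑ hϑu z hz hzv
  obtain ⟨Δ₁, hΔ₁, N₁, hN₁, hv₁, hr₁⟩ := Node.N1_step Node.ptUnif D D T τ hC D
    (fun _ h => h.2.1) hC.surj₁ x₁ hx hτ ϑ hϑ hϑu z hz hzv
  have hz' : Δ₁ * z - ϑ * N₁ ∈ BB D D T := sub_mem (mul_mem hΔ₁ hz) (mul_mem hϑ hN₁)
  obtain ⟨c, hc, z₃, hz₃, hcz⟩ := Node.small K F k κ D D T rfl _ hz' hr₁ hr₁
  exact ⟨Δ₁, hΔ₁, N₁, hN₁, z₃, hz₃, c, hc, hv₁, by linear_combination hcz⟩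

end Fermat.Agent.FF19.G0
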