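import Fermat.Agent.FF19.G0.Interface2

/-!
# FF19 / G0 : (S4) `div (rd f) = sp_* (div f)`  (`Stmt_Ord`)
-/

set_option autoImplicit false

namespace Fermat.Agent.FF19.G0

open AlgebraicCurve Polynomial IntermediateField
open Fermat.Agent.INJ (RedData IsInt Chart Branch Arch)
open Fermat.Agent.RED (Ev)
open Fermat.Agent.MR
open Fermat.Agent.MR.Node (BB Rs ns IsPt IsUnifAt Compat Std)

section

variable {K F k κ : Type} [Field K] [Field F] [Algebra K F] [Field k] [Field κ] [Algebra k κ]

theorem Ord_spc_eq (D : RedData K F k κ) (t : F) (x : Place k κ) (A : ValuationSubring K)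
    (R : Subring F) (n : Set F) (h : ∀ P : Place K F, Sp D t P x ↔ PL.Centred A R n P)
    (E : Divisor K F) : spc D t x E = PL.dg (PL.cpart A R n E) := by
  classical
  have h1 : spc D t x E = ∑ P ∈ E.support, if Sp D t P x then E P else 0 := by
    rw [spc, Finsupp.liftAddHom_apply, Finsupp.sum]
    refine Finset.sum_congr rfl fun P _ => ?_
    by_cases hP : Sp D t P x
    · rw [if_pos hP, if_pos hP]; rfl
    · rw [if_neg hP, if_neg hP]; rfl
  have h2 : PL.dg (PL.cpart A R n E) =
      ∑ P ∈ E.support, if PL.Centred A R n P then E P else 0 := by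
    rw [PL.dg, PL.cpart, Finsupp.sum, Finsupp.support_filter, Finset.sum_filter]
    refine Finset.sum_congr rfl fun P _ => ?_
    by_cases hP : PL.Centred A R n P
    · rw [if_pos hP, if_pos hP, Finsupp.filter_apply_pos _ _ hP]
    · rw [if_neg hP, if_neg hP]
  rw [h1, h2]
  refine Finset.sum_congr rfl fun P _ => ?_
  by_cases hP : Sp D t P x
  · rw [if_pos hP, if_pos ((h P).1 hP)]
  · rw [if_neg hP, if_neg (fun h' => hP ((h P).2 h'))]

end

theorem stmt_Ord (h1 : Stmt_Std) (h2 : Stmt_OrdC) (h3 : Stmt_SpIff) : Stmt_Ord := by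
  intro K F k κ _ _ _ _ _ _ _ _ _ D t hM f E hf hE x
  have key : ∀ T : F, T = t ∨ T = t⁻¹ → Chart D T → Branch D T →
      D.rd T ∈ x.toValuationSubring → spc D t x E = x.ord (D.rd f) := by
    intro T hT hc hb hx
    have hStd := h1 K F k κ D T hc hb hM.arch
    rw [h2 K F k κ D T (D.rd T) hStd x hx f E hf hE]
    exact Ord_spc_eq D t x D.A _ _ (fun P => (h3 K F k κ D t hM T hT x hx P).2) E
  by_cases hx : D.rd t ∈ x.toValuationSubring
  · exact key t (Or.inl rfl) hM.chart hM.branch hx
  · have h0 : D.rd t ≠ 0 := by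
      intro h
      apply hx
      rw [h]
      exact zero_mem _
    have hx' : D.rd t⁻¹ ∈ x.toValuationSubring := by
      rw [RedData.rd_inv h0]
      exact (x.toValuationSubring.mem_or_inv_mem (D.rd t)).resolve_left hx
    exact key t⁻¹ (Or.inr rfl) hM.chart' hM.branch' hx'

end Fermat.Agent.FF19.G0
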