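import Fermat.Agent.FF19.G0.Defs

/-!
# FF19 / G0 : the model dictionary (abstract form).  Interface.  (architect helper48)

Every statement is a `Prop`, proved in its own file `FF19/G0/<Name>.lean` as
`theorem stmt_<Name> (deps as hypotheses) : Stmt_<Name>`.

LANDED INPUT (unconditional, import and use): `INJ/All.lean` (`stmt_Gauss`, `all_Ortho`, `all_Trace`,
`all_IntRed` = P4, `all_BBasis` = P6, `all_Normal` = P7, `stmt_Clear` = P9b), `RED.stmt_GC`, `RED` R0,
`RED/EvBasic.lean` (API of `Ev`), `MR/Node/All.lean` (`ptRes`, `ptUnif`, `small`, `all_RingR`, `valA`,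
`all_Kill`, `reg`, `sepUnif`, `fg`, `all_ShapeRd`, `placeOrd`), `MR/Node/PlaceFactsAbs.lean` (`placeFacts`),
`MR/PL/Final.lean` (`all_SDec`, `all_W2s`).  The `MR/Node` statements are used with `D₂ = D₁ = D`.

OUTPUT FOR THE OTHER BLOCKS (layer 3): `Stmt_SpEx`, `Stmt_SpUniq` (S1), `Stmt_SpSurj` (S2),
`Stmt_SameRed` (S3), `Stmt_Ord` (S4), `Stmt_Val`, `Stmt_RegBB` (S5), `Stmt_Simple` (S6),
`Stmt_Basis`, `Stmt_LRed`, `Stmt_LBasis` (S7), `Stmt_spD`, `Stmt_PoleT`, `Stmt_SpAut`.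
-/

set_option autoImplicit false

namespace Fermat.Agent.FF19.G0

open AlgebraicCurve Polynomial IntermediateField
open Fermat.Agent.INJ (RedData IsInt Chart Branch Arch)
open Fermat.Agent.RED (Ev)
open Fermat.Agent.MR
open Fermat.Agent.MR.Node (BB Rs ns IsPt IsUnifAt Compat Std)

/-! ### Layer 1 : one chart `T`, in the language of `MR/Node` with `D₂ = D₁ = D` -/

/-- **FFG-1**.  A good chart gives the standing hypotheses of `MR/Node` (with `D₂ = D₁`, `τ = rd T`).
Proof: `compat`: `trans`, `sep` from `Chart`; `fin` from P3 (`finrank k(T̄) κ = finrank K(T) F > 0`);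
`int` = P4, `surj` = P7.  `T_mem`: clear.  `places` = `Node.placeFacts` (`Transcendental K T` from P1).
`fin`: the basis `b` of P6; `z = ∑ c_i(T) b_i`, `c_i ∈ K[T]`; `z ∈ O` gives `c_i(T) ∈ O` (P2) hence
`c_i ∈ A[T]` (P1). -/
def Stmt_Std : Prop :=
  ∀ (K F k κ : Type) [Field K] [IsAlgClosed K] [CharZero K] [Field F] [Algebra K F] [Field k]
    [Field κ] [Algebra k κ] (D : RedData K F k κ) (T : F), Chart D T → Branch D T → Arch D →
    Std D D T (D.rd T)

/-- **FFG-2** (N1 at a point of a one-component model).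
Proof: `f := rd z / rd ϑ ∈ x₁` (`IsUnifAt`); `Node.ptUnif` (2): `f * d = n`, `n d` integral, `|d| = 1`;
lift `s` of `d`, `z₁` of `n` (`Compat.surj₁`); `rd (s z - ϑ z₁) = 0`; `Node.small`.
(copy of `Node.smN1` without the idempotent). -/
def Stmt_N1s : Prop :=
  ∀ (K F k κ : Type) [Field K] [Field F] [Algebra K F] [Field k] [Field κ] [Algebra k κ]
    (D : RedData K F k κ) (T : F) (τ : κ), Compat D D T τ →
    ∀ x₁ : ValuationSubring κ, IsPt k x₁ → τ ∈ x₁ →
    ∀ ϑ ∈ BB D D T, IsUnifAt x₁ (D.rd ϑ) →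
    ∀ z ∈ BB D D T, x₁.valuation (D.rd z) < 1 →
      ∃ s ∈ BB D D T, ∃ z₁ ∈ BB D D T, ∃ z₃ ∈ BB D D T,
        ∃ c ∈ D.A.nonunits, x₁.valuation (D.rd s) = 1 ∧
          s * z = ϑ * z₁ + algebraMap K F c * z₃

/-- **FFG-3**.  `PL.LocData` at every point of the chart.
Proof: copy of `Node.smoothLoc` (`MR/Node/Loc.lean`), with `Stmt_N1s` instead of `Stmt_SmN1`, and
`reg := fun x hx _ hP => hR x hx hx hP` (no `RegSm`). -/
def Stmt_Loc : Prop :=
  ∀ (K F k κ : Type) [Field K] [Field F] [Algebra K F] [Field k] [IsAlgClosed k] [Field κ]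
    [Algebra k κ] (D : RedData K F k κ) (T : F) (τ : κ), Std D D T τ →
    ∀ x₁ : ValuationSubring κ, IsPt k x₁ → τ ∈ x₁ →
    ∀ ϑ ∈ BB D D T, IsUnifAt x₁ (D.rd ϑ) →
      PL.LocData D.A D.O D.O ϑ ϑ (Rs D D T x₁) (ns D D T x₁)

/-- **FFG-4**.  `ord_x (rd f)` = the degree of the part of `div f` centred at `x`.
Proof: copy of `Node.smoothOrd` (`MR/Node/SmoothOrd.lean`, the `key` step with `c = 1`):
`ϑ` a lift of a uniformiser (`ptUnif`, `surj₁`), `Stmt_Loc`, `PL.all_SDec` applied to `cpart .. E`,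
`Node.all_ShapeRd`, `Node.placeOrd`. -/
def Stmt_OrdC : Prop :=
  ∀ (K F k κ : Type) [Field K] [Field F] [Algebra K F] [Field k] [IsAlgClosed k] [Field κ]
    [Algebra k κ] (D : RedData K F k κ) (T : F) (τ : κ), Std D D T τ →
    ∀ x : Place k κ, τ ∈ x.toValuationSubring →
    ∀ (f : F) (E : Divisor K F), D.rd f ≠ 0 → (∀ P, E P = P.ord f) →
      x.ord (D.rd f) = PL.dg (PL.cpart D.A (Rx D T x) (nx D T x) E)

/-- **FFG-5**.  `SpC` and `PL.Centred`.
(a) `z ∈ Rs`: `z v = u`, `u v ∈ BB`, `|rd v|_x = 1`: the value of `v` at `P` is a unit of `A`; `ev_div`.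
For `z ∈ ns` use the representation given by `ns`.
(b) `RingFacts.res`: `z - c' ∈ ns`; `Centred` gives the value `c - c' ∈ 𝔪_A`; `all_RingR` (2):
`|rd (z - c')|_x < 1`. -/
def Stmt_SpCen : Prop :=
  ∀ (K F k κ : Type) [Field K] [Field F] [Algebra K F] [Field k] [IsAlgClosed k] [Field κ]
    [Algebra k κ] (D : RedData K F k κ) (T : F), Compat D D T (D.rd T) →
    ∀ (P : Place K F) (x : Place k κ),
      (SpC D T P x → PL.Centred D.A (Rx D T x) (nx D T x) P) ∧
      (D.rd T ∈ x.toValuationSubring → PL.Centred D.A (Rx D T x) (nx D T x) P →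
        ∀ z ∈ Rx D T x, ∃ c ∈ D.A, Ev P z c ∧
          x.toValuationSubring.valuation (D.rd z - algebraMap k κ (D.ra c)) < 1) ∧
      (D.rd T ∈ x.toValuationSubring → PL.Centred D.A (Rx D T x) (nx D T x) P → SpC D T P x)

/-- **FFG-6** (special fibre only).  A `k`-point of `Spec B̄` is a place.
Proof: `B̄ = integralClosure k[τ] κ` is a Dedekind domain with fraction field `κ`
(as in `S24/FundId.lean`: `intRing_isDedekindDomain`, with `IsSeparable` as a hypothesis instead of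
`CharZero`); `ker ρ` is a nonzero maximal ideal (`τ - ρ τ ≠ 0`); `Place.ofHeightOneSpectrum`. -/
def Stmt_PtPlace : Prop :=
  ∀ (k κ : Type) [Field k] [Field κ] [Algebra k κ] (τ : κ), Transcendental k τ →
    FiniteDimensional k⟮τ⟯ κ → Algebra.IsSeparable k⟮τ⟯ κ →
    ∀ ρ : κ → k, RED.IsPt k τ ρ → ∃ x : Place k κ, τ ∈ x.toValuationSubring ∧
      ∀ y : κ, IsInt k τ y → x.toValuationSubring.valuation (y - algebraMap k κ (ρ y)) < 1

/-- **FFG-7** (special fibre only).  Two places of the chart which define the same maximal ideal of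
`B̄` are equal.  Proof: `Node.ptUnif` (2) : `f ∈ x` is `n / d`, `|d|_x = 1`, so `|d|_{x'} = 1`
(`d ∈ x'` since `x'` is integrally closed and contains `k[τ]`), `f ∈ x'`; symmetric; `Place.ext`. -/
def Stmt_PlaceExt : Prop :=
  ∀ (k κ : Type) [Field k] [Field κ] [Algebra k κ] (τ : κ), Transcendental k τ →
    FiniteDimensional k⟮τ⟯ κ → Algebra.IsSeparable k⟮τ⟯ κ →
    ∀ x x' : Place k κ, τ ∈ x.toValuationSubring → τ ∈ x'.toValuationSubring →
      (∀ y : κ, IsInt k τ y →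
        (x.toValuationSubring.valuation y < 1 ↔ x'.toValuationSubring.valuation y < 1)) → x = x'

/-- **FFG-8**.  Divisors of functions exist.  Proof: `Node.PlaceFacts.fin` for `f` and `f⁻¹`;
`Finsupp.onFinset`. -/
def Stmt_FinSupp : Prop :=
  ∀ (K F : Type) [Field K] [Field F] [Algebra K F] (T : F), Node.PlaceFacts K F T → PL.FinSupp K F

/-! ### Layer 2 : gluing the two charts -/

/-- **FFG-9**.  On the overlap of the charts the two notions agree.
Proof: `z ∈ BB_{t⁻¹}`; `INJ.stmt_Clear`: `t ^ c * z ∈ BB_t`; `|rd t ^ c|_x = 1`; so `z ∈ Rx D t x`;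
`Stmt_SpCen` (a), (b).  (Apply it to `t⁻¹` for the other direction, `inv_inv`.) -/
def Stmt_Glue : Prop :=
  ∀ (K F k κ : Type) [Field K] [IsAlgClosed K] [CharZero K] [Field F] [Algebra K F] [Field k]
    [IsAlgClosed k] [Field κ] [Algebra k κ] (D : RedData K F k κ) (t : F), Model D t →
    ∀ (P : Place K F) (x : Place k κ), SpC D t P x → D.rd t⁻¹ ∈ x.toValuationSubring →
      SpC D t⁻¹ P x

/-- **FFG-10**.  `Sp` in a chart containing `x`.
Proof: `Stmt_Glue` (for `t` and for `t⁻¹`) and `Stmt_SpCen`. -/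
def Stmt_SpIff : Prop :=
  ∀ (K F k κ : Type) [Field K] [IsAlgClosed K] [CharZero K] [Field F] [Algebra K F] [Field k]
    [IsAlgClosed k] [Field κ] [Algebra k κ] (D : RedData K F k κ) (t : F), Model D t →
    ∀ T : F, T = t ∨ T = t⁻¹ → ∀ x : Place k κ, D.rd T ∈ x.toValuationSubring →
    ∀ P : Place K F, (Sp D t P x ↔ SpC D T P x) ∧
      (Sp D t P x ↔ PL.Centred D.A (Rx D T x) (nx D T x) P)

/-! ### Layer 3 : OUTPUT -/

/-- **(S1a)** every place specialises to a point.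
Proof: `RED.ev_or_inv`: `t(P) = c` or `t⁻¹(P) = c`; so `T(P) ∈ A` for `T = t` or `T = t⁻¹`.  `RED` R0:
`ρ` with `Over D T P ρ`.  `Stmt_PtPlace`: `x`.  Values of `z ∈ BB_T` at `P`: `PlaceFacts.reg`, `resK`,
`Node.valA`. -/
def Stmt_SpEx : Prop :=
  ∀ (K F k κ : Type) [Field K] [IsAlgClosed K] [CharZero K] [Field F] [Algebra K F] [Field k]
    [IsAlgClosed k] [Field κ] [Algebra k κ] (D : RedData K F k κ) (t : F), Model D t →
    ∀ P : Place K F, ∃ x : Place k κ, Sp D t P x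

/-- **(S1b)** the specialisation is unique.
Proof: same chart `T`: for `y ∈ B̄_T` take a lift `z` (P7), `c = z(P)`: `|y|_x < 1 ↔ c̄ = 0 ↔ |y|_{x'} < 1`;
`Stmt_PlaceExt`.  Different charts: `t(P) t⁻¹(P) = 1`, both in `A`, so `t̄` is a unit at `x`; `Stmt_Glue`. -/
def Stmt_SpUniq : Prop :=
  ∀ (K F k κ : Type) [Field K] [IsAlgClosed K] [CharZero K] [Field F] [Algebra K F] [Field k]
    [IsAlgClosed k] [Field κ] [Algebra k κ] (D : RedData K F k κ) (t : F), Model D t →
    ∀ (P : Place K F) (x x' : Place k κ), Sp D t P x → Sp D t P x' → x = x'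

/-- **(S4)** `div (rd f) = sp_* (div f)`.
Proof: a chart `T` with `rd T ∈ x` (`x` is a valuation ring, `rd t⁻¹ = (rd t)⁻¹`); `Stmt_SpIff`;
`spc D t x E = PL.dg (PL.cpart ..  E)` (both are `∑ P ∈ E.support, if .. then E P else 0`);
`Stmt_OrdC`, `Stmt_Std`. -/
def Stmt_Ord : Prop :=
  ∀ (K F k κ : Type) [Field K] [IsAlgClosed K] [CharZero K] [Field F] [Algebra K F] [Field k]
    [IsAlgClosed k] [Field κ] [Algebra k κ] (D : RedData K F k κ) (t : F), Model D t →
    ∀ (f : F) (E : Divisor K F), D.rd f ≠ 0 → (∀ P, E P = P.ord f) →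
    ∀ x : Place k κ, spc D t x E = x.ord (D.rd f)

/-- **(S2)** the specialisation map is onto.
Proof: `ϑ ∈ BB_T` a lift of a uniformiser at `x`, `E = div ϑ` (`Stmt_FinSupp`); `spc D t x E = 1 ≠ 0`. -/
def Stmt_SpSurj : Prop :=
  ∀ (K F k κ : Type) [Field K] [IsAlgClosed K] [CharZero K] [Field F] [Algebra K F] [Field k]
    [IsAlgClosed k] [Field κ] [Algebra k κ] (D : RedData K F k κ) (t : F), Model D t →
    ∀ x : Place k κ, ∃ P : Place K F, Sp D t P x

/-- **(S5)** functions regular on the residue disc of `x`: the reduction is regular at `x` and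
"value of the reduction = reduction of the value".
Proof: `Stmt_Loc` + `LocData.reg` : `f ∈ Rx D T x`; `all_RingR` (2) : `rd f ∈ x`; `Stmt_SpCen` (b). -/
def Stmt_Val : Prop :=
  ∀ (K F k κ : Type) [Field K] [IsAlgClosed K] [CharZero K] [Field F] [Algebra K F] [Field k]
    [IsAlgClosed k] [Field κ] [Algebra k κ] (D : RedData K F k κ) (t : F), Model D t →
    ∀ (x : Place k κ) (f : F), RegAt D t x f → D.rd f ∈ x.toValuationSubring ∧
      ∀ (P : Place K F) (c : K), Sp D t P x → Ev P f c → c ∈ D.A ∧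
        x.toValuationSubring.valuation (D.rd f - algebraMap k κ (D.ra c)) < 1

/-- **(S5')** the functions regular on the disc of `x` are exactly the fractions `u / v`, `u v ∈ BB_T`,
`v̄(x) ≠ 0` (`T` a chart containing `x`).  WARNING: `f ∈ D.O` with `rd f` regular at `x` is NOT enough for
`RegAt`.
Proof: (1) `Stmt_SpIff` and the definition of `SpC`.  (2) `Stmt_Loc` + `LocData.reg` + `Stmt_SpIff`. -/
def Stmt_RegBB : Prop :=
  ∀ (K F k κ : Type) [Field K] [IsAlgClosed K] [CharZero K] [Field F] [Algebra K F] [Field k]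
    [IsAlgClosed k] [Field κ] [Algebra k κ] (D : RedData K F k κ) (t : F), Model D t →
    ∀ T : F, T = t ∨ T = t⁻¹ → ∀ x : Place k κ, D.rd T ∈ x.toValuationSubring →
      (∀ z ∈ D.O, IsInt K T z → RegAt D t x z) ∧
      (∀ f : F, RegAt D t x f → ∃ u v : F, u ∈ D.O ∧ IsInt K T u ∧ v ∈ D.O ∧ IsInt K T v ∧
        x.toValuationSubring.valuation (D.rd v) = 1 ∧ f * v = u)

/-- **(S6)** a function regular on the disc whose reduction is a local parameter at `x` (after
subtracting its value) is a COORDINATE on the disc: it takes every value `a ∈ A` lifting the value at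
`x` exactly once, with multiplicity one.
Proof: `f = u - a`, `E = div f`, `spc D t x E = 1` (S4), `E P ≥ 0` for `P` over `x`. -/
def Stmt_Simple : Prop :=
  ∀ (K F k κ : Type) [Field K] [IsAlgClosed K] [CharZero K] [Field F] [Algebra K F] [Field k]
    [IsAlgClosed k] [Field κ] [Algebra k κ] (D : RedData K F k κ) (t : F), Model D t →
    ∀ (x : Place k κ) (u : F), RegAt D t x u → ∀ a ∈ D.A,
      x.ord (D.rd u - algebraMap k κ (D.ra a)) = 1 →
      ∃ P : Place K F, Sp D t P x ∧ Ev P u a ∧ P.ord (u - algebraMap K F a) = 1 ∧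
        ∀ P' : Place K F, Sp D t P' x → Ev P' u a → P' = P

/-- **(S3)** compatibility with `RED.SameRedX`.
Proof (⇐): `t̄ ∈ x`: `SpC D t` for both (`Stmt_SpIff`); `IntOver A t y` implies `y ∈ D.O`, `IsInt K t y`.
`t̄ ∉ x`: `SpC D t⁻¹` for both, `t⁻¹(P) ∈ 𝔪_A`; `LocInt A t⁻¹ y`: clear denominators, `s(t⁻¹) y ∈ BB_{t⁻¹}`,
`s(0) ∈ Aˣ`, so `y ∈ Rx D t⁻¹ x`; `Stmt_SpCen` (b).
(⇒): `x`, `x'` from (S1a); both in the chart `t` (resp. `t⁻¹`); `RED.stmt_GC` (`int_of_mem`): all `z ∈ BB`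
are test functions; conclude as in (S1b) with `Stmt_PlaceExt`. -/
def Stmt_SameRed : Prop :=
  ∀ (K F k κ : Type) [Field K] [IsAlgClosed K] [CharZero K] [Field F] [Algebra K F] [Field k]
    [IsAlgClosed k] [Field κ] [Algebra k κ] (D : RedData K F k κ) (t : F), Model D t →
    ∀ P P' : Place K F, RED.SameRedX D.A t P P' ↔ ∃ x : Place k κ, Sp D t P x ∧ Sp D t P' x

/-- **FFG-spD**.  The push-forward of divisors. -/
def Stmt_spD : Prop :=
  ∀ (K F k κ : Type) [Field K] [IsAlgClosed K] [CharZero K] [Field F] [Algebra K F] [Field k]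
    [IsAlgClosed k] [Field κ] [Algebra k κ] (D : RedData K F k κ) (t : F), Model D t →
    (∀ (E : Divisor K F) (x : Place k κ), spD D t E x = spc D t x E) ∧
    (∀ (P : Place K F) (x : Place k κ) (n : ℤ), Sp D t P x →
      spD D t (Finsupp.single P n) = Finsupp.single x n) ∧
    (∀ E : Divisor K F, 0 ≤ E → 0 ≤ spD D t E) ∧
    (∀ E : Divisor K F, PL.dg (spD D t E) = PL.dg E)

/-- **FFG-PoleT**.  `sp_* (t)_∞ = (t̄)_∞`.
Proof: `t̄ ∈ x`: all `P` over `x` satisfy `SpC D t P x`, so `t ∈ P`, `E∞ P = 0`.  `t̄ ∉ x`: all `P` over `x`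
satisfy `SpC D t⁻¹ P x` with `t⁻¹(P) ∈ 𝔪_A`, so `P.ord t ≤ 0`, `E∞ P = - P.ord t`; (S4) for `f = t`. -/
def Stmt_PoleT : Prop :=
  ∀ (K F k κ : Type) [Field K] [IsAlgClosed K] [CharZero K] [Field F] [Algebra K F] [Field k]
    [IsAlgClosed k] [Field κ] [Algebra k κ] (D : RedData K F k κ) (t : F), Model D t →
    ∀ E : Divisor K F, (∀ P, E P = max 0 (- P.ord t)) →
    ∀ x : Place k κ, spD D t E x = max 0 (- x.ord (D.rd t))

/-- **FFG-Ech** (linear algebra over a valuation ring).  Every subspace of `K ^ m` has a reduced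
echelon basis with entries in `A` (pivots = entries of maximal norm).
Proof: induction on `finrank V`.  `0 ≠ v ∈ V`, `p` an index with `|v p|` maximal, scale to `v p = 1`.
`V' = {w ∈ V, w p = 0}`, induction: `v_i`, `p_i` (`p_i ≠ p`).  Replace `v` by `v - ∑ v(p_i) v_i`. -/
def Stmt_Ech : Prop :=
  ∀ (K : Type) [Field K] (A : ValuationSubring K) (m : ℕ) (V : Submodule K (Fin m → K)),
    ∃ (r : ℕ) (v : Fin r → Fin m → K) (p : Fin r → Fin m), (∀ i, v i ∈ V) ∧ (∀ i j, v i j ∈ A) ∧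
      (∀ i i', v i (p i') = if i = i' then 1 else 0) ∧ ∀ w ∈ V, w = ∑ i, w (p i) • v i

/-- **FFG-Mono**.  The family `T ^ j * b i` (`b` the basis of P6) is orthonormal over `K`.
Proof: P2 (`all_Ortho`) and P1 (`stmt_Gauss`). -/
def Stmt_Mono : Prop :=
  ∀ (K F k κ : Type) [Field K] [Field F] [Algebra K F] [Field k] [Field κ] [Algebra k κ]
    (D : RedData K F k κ) (T : F), T ∈ D.O → Transcendental k (D.rd T) →
    ∀ (n : ℕ) (b : Fin n → F), (∀ i, b i ∈ D.O) → LinearIndependent k⟮D.rd T⟯ (fun i => D.rd (b i)) →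
    ∀ d : ℕ,
      LinearIndependent k (fun ij : Fin n × Fin d => D.rd T ^ (ij.2 : ℕ) * D.rd (b ij.1)) ∧
      ∀ c : Fin n × Fin d → K, (∑ ij, algebraMap K F (c ij) * (T ^ (ij.2 : ℕ) * b ij.1)) ∈ D.O →
        ∀ ij, c ij ∈ D.A

/-- **(S7)** every finite dimensional `K`-subspace of `F` has an orthonormal basis.
Proof: `V = span (v_l)`; `q ∈ K[T]`, `rd q ≠ 0`, `q v_l` integral over `K[T]` for all `l`
(`exists_integral_multiple`, P1 (3)); `q V ⊆ ⊕_{j < d} K T^j b_i ≅ K ^ m`; `Stmt_Ech`, `Stmt_Mono`;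
divide by `q`. -/
def Stmt_Basis : Prop :=
  ∀ (K F k κ : Type) [Field K] [IsAlgClosed K] [CharZero K] [Field F] [Algebra K F] [Field k]
    [Field κ] [Algebra k κ] (D : RedData K F k κ) (T : F), Chart D T →
    ∀ V : Submodule K F, FiniteDimensional K V →
    ∃ (n : ℕ) (b : Fin n → F), (∀ i, b i ∈ V ∧ b i ∈ D.O) ∧
      LinearIndependent k (fun i => D.rd (b i)) ∧
      ∀ v ∈ V, ∃ c : Fin n → K, v = ∑ i, algebraMap K F (c i) * b i ∧ (v ∈ D.O → ∀ i, c i ∈ D.A)

/-- **(S7')** `rd (L(E) ∩ O) ⊆ L̄ (sp_* E)`.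
Proof: `rd f ≠ 0`; `E_f = div f`; `0 ≤ E_f + E`; `Stmt_spD` (3), (1); (S4). -/
def Stmt_LRed : Prop :=
  ∀ (K F k κ : Type) [Field K] [IsAlgClosed K] [CharZero K] [Field F] [Algebra K F] [Field k]
    [IsAlgClosed k] [Field κ] [Algebra k κ] (D : RedData K F k κ) (t : F), Model D t →
    ∀ (E : Divisor K F) (f : F), f ∈ riemannRochSpace E → f ∈ D.O →
      D.rd f ∈ riemannRochSpace (spD D t E)

/-- **(S7'')** the lattice `L(E) ∩ O` is free over `A` on a basis of `L(E)` whose reduction is a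
`k`-independent family of `L̄ (sp_* E)`.  (So `dim_K L(E) ≤ dim_k L̄ (sp_* E)`.) -/
def Stmt_LBasis : Prop :=
  ∀ (K F k κ : Type) [Field K] [IsAlgClosed K] [CharZero K] [Field F] [Algebra K F] [Field k]
    [IsAlgClosed k] [Field κ] [Algebra k κ] (D : RedData K F k κ) (t : F), Model D t →
    ∀ E : Divisor K F, FiniteDimensional K (riemannRochSpace E) →
    ∃ (n : ℕ) (b : Fin n → F),
      (∀ i, b i ∈ riemannRochSpace E ∧ b i ∈ D.O ∧ D.rd (b i) ∈ riemannRochSpace (spD D t E)) ∧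
      LinearIndependent k (fun i => D.rd (b i)) ∧ LinearIndependent K b ∧
      n = Module.finrank K (riemannRochSpace E) ∧
      ∀ v ∈ riemannRochSpace E, ∃ c : Fin n → K, v = ∑ i, algebraMap K F (c i) * b i ∧
        (v ∈ D.O → ∀ i, c i ∈ D.A)

/-- **FFG-SpAut**.  Automorphisms which act trivially on the special fibre and fix `t` preserve the
specialisation (to be applied to the inertia group).
Proof: `z ∈ BB_T` iff `g⁻¹ • z ∈ BB_T`; `RED.ev_smul`; `ra (g c) = ra c` (apply the hypothesis to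
constants). -/
def Stmt_SpAut : Prop :=
  ∀ (K F k κ : Type) [Field K] [Field F] [Algebra K F] [Field k] [Field κ] [Algebra k κ]
    (D : RedData K F k κ) (t : F) (g : SemilinearAut K F),
    (∀ z : F, g • z ∈ D.O ↔ z ∈ D.O) → (∀ z ∈ D.O, D.rd (g • z) = D.rd z) → g • t = t →
    ∀ (P : Place K F) (x : Place k κ), Sp D t P x → Sp D t (g • P) x

end Fermat.Agent.FF19.G0
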