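/-
FF19 / G0, task FFG-04 (helper67): `ord_x (rd f)` = the degree of the part of `div f` centred at `x`.
-/
import Fermat.Agent.FF19.G0.Interface
import Fermat.Agent.MR.Node.PtRes
import Fermat.Agent.MR.Node.PtUnif
import Fermat.Agent.MR.Node.RingR
import Fermat.Agent.MR.Node.ShapeRd
import Fermat.Agent.MR.Node.PlaceOrd
import Fermat.Agent.MR.Node.SmoothOrd
import Fermat.Agent.MR.PL.Final

set_option autoImplicit false

namespace Fermat.Agent.FF19.G0

open AlgebraicCurve Polynomial IntermediateField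
open Fermat.Agent.INJ (RedData IsInt Chart Branch Arch)
open Fermat.Agent.RED (Ev)
open Fermat.Agent.MR
open Fermat.Agent.MR.Node (BB Rs ns IsPt IsUnifAt Compat Std)

theorem stmt_OrdC (h : Stmt_Loc) : Stmt_OrdC := by
  classical
  intro K F k κ _ _ _ _ _ _ _ D T τ hstd x hτ f E hf hE
  have hc := hstd.compat
  obtain ⟨hpt, hP1, -, -, hP4⟩ := Node.placeOrd k κ x
  obtain ⟨⟨π, hπint, hπ⟩, -, -⟩ :=
    Node.ptUnif k κ τ hc.trans hc.fin hc.sep x.toValuationSubring hpt hτ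
  obtain ⟨ϑ, hϑ, hϑπ⟩ := hc.surj₁ π hπint
  have hϑu : IsUnifAt x.toValuationSubring (D.rd ϑ) := by rw [hϑπ]; exact hπ
  have hϑ0 : D.rd ϑ ≠ 0 := hϑu.1
  have hloc := h K F k κ D T τ hstd x.toValuationSubring hpt hτ ϑ hϑ hϑu
  have hg : PL.Gauss D.A D.O := PL.Gauss.ofRedData D
  have hres : PL.ResK K F := hstd.places.resK
  have hval : D.O.valuation ϑ = 1 := Node.SM1_val_eq_one hϑ0
  have hordϑ : x.ord (D.rd ϑ) = 1 := hP4 _ hϑu
  have hfne : f ≠ 0 := by
    rintro rfl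
    exact hf RedData.rd_zero
  have hsh := PL.all_SDec K F D.A D.O ϑ _ _ hg hres hloc hval f
    (PL.cpart D.A (Rx D T x) (nx D T x) E) hfne
    (by
      intro P hP
      unfold PL.cpart
      exact (Finsupp.filter_apply_pos _ _ hP).trans (hE P))
    (by
      intro P hP
      unfold PL.cpart
      exact Finsupp.filter_apply_neg _ _ hP)
  have h1 := Node.shapeRd (Node.ringR Node.ptRes) K F k κ D D T τ hc x.toValuationSubring hpt hτ
    ϑ f _ hϑ0 hsh 1 (by rw [map_one, one_mul]; exact hf)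
  rw [map_one, one_mul] at h1
  have hz : D.rd ϑ ^ (PL.dg (PL.cpart D.A (Rx D T x) (nx D T x) E)) ≠ 0 := zpow_ne_zero _ hϑ0
  have h2 := (hP1 _ (div_ne_zero hf hz)).1 h1
  rw [div_eq_mul_inv, x.ord_mul hf (inv_ne_zero hz), x.ord_inv, x.ord_zpow, hordϑ] at h2
  linarith

end Fermat.Agent.FF19.G0
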