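import Fermat.Agent.FF19.G0.Interface
import Fermat.Agent.FF19.Kap.PtPlace

/-!
# FF19 / G0, task FFG-07 (helper16): two places of the chart which define the same maximal ideal of
`B̄` are equal
(the proof of `Kap.stmt_PlaceExt`, without the hypothesis that `k` is algebraically closed)
-/

set_option autoImplicit false

namespace Fermat.Agent.FF19.G0

open AlgebraicCurve IntermediateField IsDedekindDomain
open Fermat.Agent.S24 Fermat.Agent.INJ Fermat.Agent.RED Fermat.Agent.FF19.Kap

/-- **FFG-7**. -/
theorem stmt_PlaceExt : Stmt_PlaceExt := by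
  intro k κ _ _ _ τ htr hfin hsep x x' hx hx' hxx'
  have h : IsSepVar k τ := ⟨htr, hfin, hsep⟩
  have := Fund_isDedekindDomain h
  have := Fund_isFractionRing h
  obtain ⟨P, rfl⟩ := PP_exists_prime h x hx
  obtain ⟨P', rfl⟩ := PP_exists_prime h x' hx'
  have hle : P.asIdeal ≤ P'.asIdeal := fun r hr =>
    (PP_ev_zero_iff h P' r).1 (ev_zero_iff.2 ((ValuationSubring.mem_nonunits_iff _).2
      ((hxx' r r.2).1 ((ValuationSubring.mem_nonunits_iff _).1
        (ev_zero_iff.1 ((PP_ev_zero_iff h P r).2 hr))))))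
  have heq : P.asIdeal = P'.asIdeal := P.isMaximal.eq_of_le P'.isPrime.ne_top hle
  rw [HeightOneSpectrum.ext heq]

end Fermat.Agent.FF19.G0
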