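import Fermat.Agent.FF19.G0.Interface2
import Fermat.Agent.S24.PlaceBasic
import Fermat.Agent.RED.EvBasic

/-!
# FF19 / G0 : FFG-21 `Stmt_PoleT` : `sp_* (t)_∞ = (t̄)_∞`  (task 1857, helper76)
-/

set_option autoImplicit false

namespace Fermat.Agent.FF19.G0

open AlgebraicCurve Polynomial IntermediateField
open Fermat.Agent.INJ (RedData IsInt Chart Branch Arch)
open Fermat.Agent.RED (Ev)
open Fermat.Agent.MR

section

variable {K F k κ : Type} [Field K] [Field F] [Algebra K F] [Field k] [Field κ] [Algebra k κ]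

/-- a divisor which vanishes on the residue disc of `x` has `spc = 0`. -/
theorem PoleT_spc_eq_zero (D : RedData K F k κ) (t : F) (x : Place k κ) (G : Divisor K F)
    (h : ∀ P, Sp D t P x → G P = 0) : spc D t x G = 0 := by
  classical
  unfold spc
  rw [Finsupp.liftAddHom_apply, Finsupp.sum]
  refine Finset.sum_eq_zero ?_
  intro P _
  by_cases hP : Sp D t P x
  · rw [if_pos hP, h P hP]; rfl
  · rw [if_neg hP]; rfl

theorem PoleT_isInt_self (T : F) : IsInt K T T :=
  isIntegral_algebraMap (R := Algebra.adjoin K {T})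
    (x := (⟨T, Algebra.subset_adjoin rfl⟩ : Algebra.adjoin K {T}))

end

theorem stmt_PoleT (h1 : Stmt_Std) (h2 : Stmt_FinSupp) (h3 : Stmt_SpIff) (h4 : Stmt_Ord)
    (h5 : Stmt_spD) : Stmt_PoleT := by
  intro K F k κ _ _ _ _ _ _ _ _ _ D t hM E hE x
  rw [(h5 K F k κ D t hM).1 E x]
  have hrt0 : D.rd t ≠ 0 := by
    intro h0
    exact hM.chart.trans (h0 ▸ isAlgebraic_zero)
  have ht0 : t ≠ 0 := by
    rintro rfl
    exact hrt0 RedData.rd_zero
  by_cases hx : D.rd t ∈ x.toValuationSubring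
  · -- `t̄` regular at `x`
    have hord : 0 ≤ x.ord (D.rd t) := (S24.mem_iff_ord_nonneg x hrt0).1 hx
    rw [max_eq_left (by omega)]
    refine PoleT_spc_eq_zero D t x E ?_
    intro P hP
    have hC : SpC D t P x := ((h3 K F k κ D t hM t (Or.inl rfl) x hx P).1).1 hP
    obtain ⟨c, -, hc, -⟩ := hC.2 t hM.chart.t_mem (PoleT_isInt_self t)
    have : 0 ≤ P.ord t := (S24.mem_iff_ord_nonneg P ht0).1 (RED.ev_mem hc)
    rw [hE P, max_eq_left (by omega)]
  · -- `t̄` has a pole at `x`
    have hord : x.ord (D.rd t) < 0 := by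
      by_contra hcon
      exact hx ((S24.mem_iff_ord_nonneg x hrt0).2 (not_lt.1 hcon))
    rw [max_eq_right (by omega)]
    have hinv : D.rd t⁻¹ ∈ x.toValuationSubring := by
      rw [RedData.rd_inv hrt0]
      exact (x.toValuationSubring.mem_or_inv_mem (D.rd t)).resolve_left hx
    obtain ⟨Et, hEt⟩ := h2 K F t (h1 K F k κ D t hM.chart hM.branch hM.arch).places t ht0
    have hS4 : spc D t x Et = x.ord (D.rd t) := h4 K F k κ D t hM t Et hrt0 hEt x
    have hz : spc D t x (E + Et) = 0 := by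
      refine PoleT_spc_eq_zero D t x (E + Et) ?_
      intro P hP
      have hC : SpC D t⁻¹ P x := ((h3 K F k κ D t hM t⁻¹ (Or.inr rfl) x hinv P).1).1 hP
      obtain ⟨c, -, hc, -⟩ := hC.2 t⁻¹ hM.chart'.t_mem (PoleT_isInt_self t⁻¹)
      have h0 : 0 ≤ P.ord t⁻¹ := (S24.mem_iff_ord_nonneg P (inv_ne_zero ht0)).1 (RED.ev_mem hc)
      rw [Place.ord_inv] at h0
      rw [Finsupp.add_apply, hE P, hEt P, max_eq_right h0]
      omega
    rw [map_add, hS4] at hz
    omega

end Fermat.Agent.FF19.G0
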