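import Fermat.Agent.FF19.G0.Interface
import Fermat.Agent.FF19.Kap.PtPlace

/-!
# FF19 / G0, task FFG-06 (helper83): a `k`-point of `Spec B̄` is a place
(the proof of `Kap.stmt_PtPlace`, without the hypothesis that `k` is algebraically closed)
-/

set_option autoImplicit false

namespace Fermat.Agent.FF19.G0

open AlgebraicCurve IntermediateField IsDedekindDomain
open Fermat.Agent.S24 Fermat.Agent.INJ Fermat.Agent.RED Fermat.Agent.FF19.Kap

/-- **FFG-6**. -/
theorem stmt_PtPlace : Stmt_PtPlace := by
  intro k κ _ _ _ τ htr hfin hsep ρ hρ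
  have h : IsSepVar k τ := ⟨htr, hfin, hsep⟩
  have := Fund_isDedekindDomain h
  have := Fund_isFractionRing h
  let φ : intRing k τ →+* k :=
    { toFun := fun b => ρ (b : κ)
      map_one' := by
        show ρ (1 : κ) = 1
        rw [← map_one (algebraMap k κ), hρ.const]
      map_zero' := by
        show ρ (0 : κ) = 0
        rw [← map_zero (algebraMap k κ), hρ.const]
      map_add' := fun a b => hρ.add a b a.2 b.2
      map_mul' := fun a b => hρ.mul a b a.2 b.2 }
  have hφc : ∀ c : k, φ (algebraMap k (intRing k τ) c) = c := fun c => hρ.const c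
  have hsurj : Function.Surjective φ := fun c => ⟨_, hφc c⟩
  have hmax : (RingHom.ker φ).IsMaximal := RingHom.ker_isMaximal_of_surjective φ hsurj
  have hne : RingHom.ker φ ≠ ⊥ := by
    intro hbot
    let b₀ : intRing k τ := ⟨τ, PP_isInt_self τ⟩ - algebraMap k (intRing k τ) (ρ τ)
    have hb₀ : b₀ ∈ RingHom.ker φ := by
      rw [RingHom.mem_ker, map_sub, hφc]
      exact sub_self _
    rw [hbot, Ideal.mem_bot] at hb₀
    have h1 : τ - algebraMap k κ (ρ τ) = 0 := congrArg Subtype.val hb₀
    apply htr
    rw [sub_eq_zero.1 h1]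
    exact isAlgebraic_algebraMap _
  let P : HeightOneSpectrum (intRing k τ) := ⟨RingHom.ker φ, hmax.isPrime, hne⟩
  have key : ∀ y : κ, IsInt k τ y → Ev (Place.ofHeightOneSpectrum (K := k) P) y (ρ y) := by
    intro y hy
    let r : intRing k τ := ⟨y, hy⟩ - algebraMap k (intRing k τ) (ρ y)
    have hr : r ∈ P.asIdeal := by
      show r ∈ RingHom.ker φ
      rw [RingHom.mem_ker, map_sub, hφc]
      exact sub_self _
    have h1 := (PP_ev_zero_iff h P r).2 hr
    exact ev_zero_iff.1 h1
  refine ⟨Place.ofHeightOneSpectrum (K := k) P, ev_mem (key τ (PP_isInt_self τ)), fun y hy => ?_⟩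
  exact (ValuationSubring.mem_nonunits_iff _).1 (key y hy)

end Fermat.Agent.FF19.G0
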