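import Fermat.Agent.FF19.G0.Interface2
import Fermat.Agent.RED.R0

/-!
# FF19 / G0 : (S3 ⇐) two places with the same specialisation have the same reduction (`Stmt_SameRedA`)
-/

set_option autoImplicit false

namespace Fermat.Agent.FF19.G0

open AlgebraicCurve Polynomial
open Fermat.Agent.INJ (RedData IsInt Chart Branch Arch)
open Fermat.Agent.RED (Ev)
open Fermat.Agent.MR
open Fermat.Agent.MR.Node (BB Rs ns IsPt IsUnifAt Compat Std)

section

variable {K F k κ : Type} [Field K] [Field F] [Algebra K F] [Field k] [Field κ] [Algebra k κ]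

theorem SameRedA_isInt_self (x : F) : IsInt K x x :=
  isIntegral_algebraMap (R := Algebra.adjoin K {x}) (A := F)
    (x := ⟨x, Algebra.subset_adjoin (Set.mem_singleton x)⟩)

theorem SameRedA_polyHom_mem (D : RedData K F k κ) {T : F} (hT : T ∈ D.O) (p : (↥D.A)[X]) :
    RED.polyHom D.A T p ∈ D.O := by
  induction p using Polynomial.induction_on' with
  | add p q hp hq => rw [map_add]; exact add_mem hp hq
  | monomial n a =>
    rw [← C_mul_X_pow_eq_monomial, map_mul, map_pow, RED.polyHom_C, RED.polyHom_X]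
    exact mul_mem (RedData.algebraMap_mem a.2) (pow_mem hT n)

theorem SameRedA_rd_polyHom_mem (D : RedData K F k κ) {T : F} (hT : T ∈ D.O)
    (x : ValuationSubring κ) (hk : ∀ c : k, algebraMap k κ c ∈ x) (hx : D.rd T ∈ x)
    (p : (↥D.A)[X]) : D.rd (RED.polyHom D.A T p) ∈ x := by
  induction p using Polynomial.induction_on' with
  | add p q hp hq =>
    rw [map_add, RedData.rd_add (SameRedA_polyHom_mem D hT p) (SameRedA_polyHom_mem D hT q)]
    exact add_mem hp hq
  | monomial n a =>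
    rw [← C_mul_X_pow_eq_monomial, map_mul, map_pow, RED.polyHom_C, RED.polyHom_X,
      RedData.rd_mul (RedData.algebraMap_mem a.2) (pow_mem hT n), RedData.rd_pow hT,
      RedData.rd_algebraMap a.2]
    exact mul_mem (hk _) (pow_mem hx n)

theorem SameRedA_mem_O (D : RedData K F k κ) {T y : F} (hT : T ∈ D.O)
    (h : RED.IntOver D.A T y) : y ∈ D.O :=
  RED.EV_mem_of_isIntegral D.O (by rintro _ ⟨p, rfl⟩; exact SameRedA_polyHom_mem D hT p) h

/-- a constant which is small at a place is zero. -/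
theorem SameRedA_const_zero (x : Place k κ) {c : k}
    (h : x.toValuationSubring.valuation (algebraMap k κ c) < 1) : c = 0 := by
  by_contra hc
  exact RED.EV_const_not_mem_nonunits x hc ((ValuationSubring.mem_nonunits_iff _).2 h)

theorem SameRedA_const_val (x : Place k κ) {c : k} (hc : c ≠ 0) :
    x.toValuationSubring.valuation (algebraMap k κ c) = 1 := by
  refine le_antisymm ((ValuationSubring.valuation_le_one_iff _ _).2 (x.algebraMap_mem' c)) ?_
  by_contra h
  exact hc (SameRedA_const_zero x (not_le.1 h))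

theorem SameRedA_nonunit (D : RedData K F k κ) {c : K} (hc : c ∈ D.A) (h : D.ra c = 0) :
    c ∈ D.A.nonunits := by
  rw [RED.EV_mem_nonunits_iff]
  by_cases h0 : c = 0
  · exact Or.inl h0
  · refine Or.inr fun hinv => ?_
    have h1 := RED.R0_ra_mul (D := D) hc hinv
    rw [mul_inv_cancel₀ h0, h, zero_mul, RedData.ra_of_mem D.A.one_mem] at h1
    have h2 : D.rA ⟨1, D.A.one_mem⟩ = 1 := map_one D.rA
    rw [h2] at h1
    exact one_ne_zero h1

/-- two values with the same reduction at `x`. -/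
theorem SameRedA_core (D : RedData K F k κ) (x : Place k κ) {y : κ} {c c' : K} (hc : c ∈ D.A)
    (hc' : c' ∈ D.A) (h : x.toValuationSubring.valuation (y - algebraMap k κ (D.ra c)) < 1)
    (h' : x.toValuationSubring.valuation (y - algebraMap k κ (D.ra c')) < 1) :
    c - c' ∈ D.A.nonunits := by
  apply SameRedA_nonunit D (sub_mem hc hc')
  rw [RED.R0_ra_sub hc hc']
  apply SameRedA_const_zero x
  rw [map_sub]
  have e : algebraMap k κ (D.ra c) - algebraMap k κ (D.ra c')
      = (y - algebraMap k κ (D.ra c')) - (y - algebraMap k κ (D.ra c)) := by ring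
  rw [e]
  exact lt_of_le_of_lt (Valuation.map_sub _ _ _) (max_lt h' h)

/-- the value of `s(T)` at a point where `T̄` vanishes is a unit if `s(0)` is a unit. -/
theorem SameRedA_val_polyHom (D : RedData K F k κ) {T : F} (hT : T ∈ D.O) (x : Place k κ)
    (hx : x.toValuationSubring.valuation (D.rd T) < 1) {s : (↥D.A)[X]} (hs : IsUnit (s.coeff 0)) :
    x.toValuationSubring.valuation (D.rd (RED.polyHom D.A T s)) = 1 := by
  have hxm : D.rd T ∈ x.toValuationSubring := (ValuationSubring.valuation_le_one_iff _ _).1 hx.le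
  have e : RED.polyHom D.A T s
      = RED.polyHom D.A T s.divX * T + algebraMap K F ((s.coeff 0 : D.A) : K) := by
    conv_lhs => rw [← divX_mul_X_add s]
    rw [map_add, map_mul, RED.polyHom_C, RED.polyHom_X]
  have hq := SameRedA_polyHom_mem D hT s.divX
  rw [e, RedData.rd_add (mul_mem hq hT) (RedData.algebraMap_mem (s.coeff 0).2),
    RedData.rd_mul hq hT, RedData.rd_algebraMap (s.coeff 0).2]
  have h0 : D.ra ((s.coeff 0 : D.A) : K) ≠ 0 := by
    rw [RedData.ra_of_mem (s.coeff 0).2]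
    exact (hs.map D.rA).ne_zero
  have h1 := SameRedA_const_val x h0
  have h2 : x.toValuationSubring.valuation (D.rd (RED.polyHom D.A T s.divX) * D.rd T) < 1 := by
    rw [map_mul]
    have h3 := (ValuationSubring.valuation_le_one_iff _ _).2
      (SameRedA_rd_polyHom_mem D hT x.toValuationSubring x.algebraMap_mem' hxm s.divX)
    exact lt_of_le_of_lt (mul_le_of_le_one_left' h3) hx
  rw [Valuation.map_add_eq_of_lt_right _ (by rw [h1]; exact h2), h1]

theorem SameRedA_mem_Rx (D : RedData K F k κ) {T : F} (hT : T ∈ D.O) (x : Place k κ)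
    (hx : x.toValuationSubring.valuation (D.rd T) < 1) {y : F} (hy : RED.LocInt D.A T y) :
    y ∈ Rx D T x := by
  obtain ⟨s, hs, hI⟩ := hy.exists_mul_intOver
  have hO := SameRedA_mem_O D hT hI
  have hsO := SameRedA_polyHom_mem D hT s
  exact ⟨RED.polyHom D.A T s * y, ⟨RED.KEY_isIntegral_adjoin hI, hO, hO⟩, RED.polyHom D.A T s,
    ⟨RED.KEY_isIntegral_adjoin (RED.intOver_polyHom s), hsO, hsO⟩,
    SameRedA_val_polyHom D hT x hx hs, mul_comm _ _⟩

end

/-- **(S3 ⇐)** -/
theorem stmt_SameRedA (h1 : Stmt_Std) (h2 : Stmt_SpCen) (h3 : Stmt_SpIff) : Stmt_SameRedA := by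
  intro K F k κ _ _ _ _ _ _ _ _ _ D t hM P P' x hP hP'
  by_cases hx : D.rd t ∈ x.toValuationSubring
  · left
    have hS := ((h3 K F k κ D t hM t (Or.inl rfl) x hx P).1).1 hP
    have hS' := ((h3 K F k κ D t hM t (Or.inl rfl) x hx P').1).1 hP'
    refine ⟨?_, ?_, ?_⟩
    · obtain ⟨c, hc, hE, -⟩ := hS.2 t hM.chart.t_mem (SameRedA_isInt_self t)
      exact ⟨c, hc, hE⟩
    · obtain ⟨c, hc, hE, -⟩ := hS'.2 t hM.chart.t_mem (SameRedA_isInt_self t)
      exact ⟨c, hc, hE⟩
    · intro y hy c c' hE hE'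
      have hyO := SameRedA_mem_O D hM.chart.t_mem hy
      have hyI : IsInt K t y := RED.KEY_isIntegral_adjoin hy
      obtain ⟨c₁, hc₁, hE₁, hv₁⟩ := hS.2 y hyO hyI
      obtain ⟨c₂, hc₂, hE₂, hv₂⟩ := hS'.2 y hyO hyI
      obtain rfl := RED.ev_unique hE₁ hE
      obtain rfl := RED.ev_unique hE₂ hE'
      exact SameRedA_core D x hc₁ hc₂ hv₁ hv₂
  · right
    have hrt : D.rd t ≠ 0 := fun h => hx (h ▸ zero_mem _)
    have hinv : D.rd t⁻¹ = (D.rd t)⁻¹ := RedData.rd_inv hrt
    have hlt : x.toValuationSubring.valuation (D.rd t⁻¹) < 1 := by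
      rw [hinv, map_inv₀]
      have h4 : 1 < x.toValuationSubring.valuation (D.rd t) :=
        not_le.1 fun h => hx ((ValuationSubring.valuation_le_one_iff _ _).1 h)
      exact inv_lt_one_of_one_lt₀ h4
    have hx' : D.rd t⁻¹ ∈ x.toValuationSubring :=
      (ValuationSubring.valuation_le_one_iff _ _).1 hlt.le
    have hS := ((h3 K F k κ D t hM t⁻¹ (Or.inr rfl) x hx' P).1).1 hP
    have hS' := ((h3 K F k κ D t hM t⁻¹ (Or.inr rfl) x hx' P').1).1 hP'
    have hCo : Compat D D t⁻¹ (D.rd t⁻¹) :=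
      (h1 K F k κ D t⁻¹ hM.chart' hM.branch' hM.arch).compat
    have hVal := (h2 K F k κ D t⁻¹ hCo P x).2.1 hx' ((h2 K F k κ D t⁻¹ hCo P x).1 hS)
    have hVal' := (h2 K F k κ D t⁻¹ hCo P' x).2.1 hx' ((h2 K F k κ D t⁻¹ hCo P' x).1 hS')
    have hsmall : ∀ c : K, c ∈ D.A →
        x.toValuationSubring.valuation (D.rd t⁻¹ - algebraMap k κ (D.ra c)) < 1 →
        c ∈ D.A.nonunits := by
      intro c hc hv
      refine SameRedA_nonunit D hc (SameRedA_const_zero x ?_)
      have e : algebraMap k κ (D.ra c) = D.rd t⁻¹ - (D.rd t⁻¹ - algebraMap k κ (D.ra c)) := by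
        ring
      rw [e]
      exact lt_of_le_of_lt (Valuation.map_sub _ _ _) (max_lt hlt hv)
    refine ⟨?_, ?_, ?_⟩
    · obtain ⟨c, hc, hE, hv⟩ := hS.2 t⁻¹ hM.chart'.t_mem (SameRedA_isInt_self _)
      exact ⟨c, hsmall c hc hv, hE⟩
    · obtain ⟨c, hc, hE, hv⟩ := hS'.2 t⁻¹ hM.chart'.t_mem (SameRedA_isInt_self _)
      exact ⟨c, hsmall c hc hv, hE⟩
    · intro y hy c c' hE hE'
      have hyR : y ∈ Rx D t⁻¹ x := SameRedA_mem_Rx D hM.chart'.t_mem x hlt hy
      obtain ⟨c₁, hc₁, hE₁, hv₁⟩ := hVal y hyR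
      obtain ⟨c₂, hc₂, hE₂, hv₂⟩ := hVal' y hyR
      obtain rfl := RED.ev_unique hE₁ hE
      obtain rfl := RED.ev_unique hE₂ hE'
      exact SameRedA_core D x hc₁ hc₂ hv₁ hv₂

end Fermat.Agent.FF19.G0
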