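import Fermat.Agent.FF19.G0.Interface2
import Fermat.Agent.RED.GC
import Fermat.Agent.RED.Ev
import Fermat.Agent.RED.EvBasic
import Fermat.Agent.MR.Node.Kill

/-!
# FF19 / G0 : (S3 ⇒) same reduction in the sense of `RED` implies the same specialisation (FFG-19)
-/

set_option autoImplicit false

namespace Fermat.Agent.FF19.G0

open AlgebraicCurve
open Fermat.Agent.INJ (RedData IsInt Chart Branch Arch)
open Fermat.Agent.RED (Ev)
open Fermat.Agent.MR

section Aux

variable {K F k κ : Type} [Field K] [Field F] [Algebra K F] [Field k] [Field κ] [Algebra k κ]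

theorem SameRedB_isInt_self (T : F) : IsInt K T T := by
  unfold IsInt
  exact isIntegral_algebraMap
    (x := (⟨T, Algebra.subset_adjoin (Set.mem_singleton T)⟩ : Algebra.adjoin K {T}))

/-- `|z̄|_x < 1` iff the value of `z` at a place over `x` is in `𝔪_A`. -/
theorem SameRedB_key (D : RedData K F k κ) (z : F) (x : Place k κ) (c : K) (hc : c ∈ D.A)
    (hv : x.toValuationSubring.valuation (D.rd z - algebraMap k κ (D.ra c)) < 1) :
    x.toValuationSubring.valuation (D.rd z) < 1 ↔ c ∈ D.A.nonunits := by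
  have hE : Ev x (D.rd z) (D.ra c) := hv
  constructor
  · intro h
    have h0 : Ev x (D.rd z) 0 := RED.ev_zero_iff.2 h
    have h1 : D.ra c = 0 := RED.ev_unique hE h0
    by_contra hn
    exact (Node.Kill_ra_ne_zero_iff hc).2 hn h1
  · intro h
    have h1 : D.ra c = 0 := by
      by_contra hn
      exact (Node.Kill_ra_ne_zero_iff hc).1 hn h
    rw [h1, map_zero, sub_zero] at hv
    exact hv

/-- a place with `T(P) ∈ A` specialises into the chart `T`. -/
theorem SameRedB_chart (D : RedData K F k κ) (T : F) (hT : Chart D T) (hT' : Chart D T⁻¹)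
    (P : Place K F) (x : Place k κ) (h : SpC D T⁻¹ P x) (c : K) (hcA : c ∈ D.A) (hc : Ev P T c) :
    D.rd T ∈ x.toValuationSubring := by
  have hrd0 : D.rd T ≠ 0 := by
    intro h0
    apply hT.trans
    rw [h0]
    exact isAlgebraic_zero
  have hT0 : T ≠ 0 := by
    rintro rfl
    exact hrd0 RedData.rd_zero
  obtain ⟨c1, hc1A, hE1, hv1⟩ := h.2 T⁻¹ hT'.t_mem (SameRedB_isInt_self T⁻¹)
  have h1 : Ev P (T * T⁻¹) (c * c1) := RED.ev_mul hc hE1
  rw [mul_inv_cancel₀ hT0] at h1
  have h2 : c * c1 = 1 := RED.ev_unique h1 (RED.ev_one P)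
  have hc1 : c1 ∉ D.A.nonunits := by
    rw [RED.EV_mem_nonunits_iff, not_or, not_not]
    refine ⟨?_, ?_⟩
    · rintro rfl
      rw [mul_zero] at h2
      exact zero_ne_one h2
    · rw [← eq_inv_of_mul_eq_one_left h2]
      exact hcA
  have hra : D.ra c1 ≠ 0 := (Node.Kill_ra_ne_zero_iff hc1A).2 hc1
  have hE : Ev x (D.rd T⁻¹) (D.ra c1) := hv1
  have h3 := RED.EV_inv_mem hE hra
  rw [RedData.rd_inv hrd0, inv_inv] at h3
  exact h3

end Aux

theorem SameRedB_core (h1 : Stmt_Std) (h2 : Stmt_PlaceExt) {K F k κ : Type} [Field K]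
    [IsAlgClosed K] [CharZero K] [Field F] [Algebra K F] [Field k] [Field κ] [Algebra k κ]
    (D : RedData K F k κ) (T : F) (hC : Chart D T) (hB : Branch D T) (hArch : Arch D)
    (P P' : Place K F) (x x' : Place k κ) (hs : SpC D T P x) (hs' : SpC D T P' x')
    (hcong : ∀ z, RED.IntOver D.A T z → ∀ c c', Ev P z c → Ev P' z c' → c - c' ∈ D.A.nonunits) :
    x = x' := by
  have hCo := (h1 K F k κ D T hC hB hArch).compat
  refine h2 k κ (D.rd T) hCo.trans hCo.fin hCo.sep x x' hs.1 hs'.1 ?_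
  intro y hy
  obtain ⟨z, hz, rfl⟩ := hCo.surj₁ y hy
  obtain ⟨c, hcA, hEv, hv⟩ := hs.2 z hz.2.1 hz.1
  obtain ⟨c', hcA', hEv', hv'⟩ := hs'.2 z hz.2.1 hz.1
  have hint : RED.IntOver D.A T z := (RED.stmt_GC K F k κ D T hC).int_of_mem z hz.2.1 hz.1
  have hcc := hcong z hint c c' hEv hEv'
  rw [SameRedB_key D z x c hcA hv, SameRedB_key D z x' c' hcA' hv']
  constructor
  · intro h
    have : c' = c - (c - c') := by ring
    rw [this]
    exact RED.EV_nonunits_sub _ h hcc
  · intro h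
    have : c = c' + (c - c') := by ring
    rw [this]
    exact RED.EV_nonunits_add _ h hcc

theorem stmt_SameRedB (h1 : Stmt_Std) (h2 : Stmt_PlaceExt) (h3 : Stmt_SpIff) : Stmt_SameRedB := by
  intro K F k κ _ _ _ _ _ _ _ _ _ D t hM P P' x x' hS hsp hsp'
  have hinv : Chart D (t⁻¹)⁻¹ := by rw [inv_inv]; exact hM.chart
  rcases hS with hFin | hLoc
  · obtain ⟨⟨c, hcA, hc⟩, ⟨c', hcA', hc'⟩, hcong⟩ := hFin
    have hx : D.rd t ∈ x.toValuationSubring := by
      rcases hsp with h | h
      · exact h.1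
      · exact SameRedB_chart D t hM.chart hM.chart' P x h c hcA hc
    have hx' : D.rd t ∈ x'.toValuationSubring := by
      rcases hsp' with h | h
      · exact h.1
      · exact SameRedB_chart D t hM.chart hM.chart' P' x' h c' hcA' hc'
    exact SameRedB_core h1 h2 D t hM.chart hM.branch hM.arch P P' x x'
      ((h3 K F k κ D t hM t (Or.inl rfl) x hx P).1.1 hsp)
      ((h3 K F k κ D t hM t (Or.inl rfl) x' hx' P').1.1 hsp') hcong
  · obtain ⟨⟨c, hcm, hc⟩, ⟨c', hcm', hc'⟩, hcong⟩ := hLoc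
    have hx : D.rd t⁻¹ ∈ x.toValuationSubring := by
      rcases hsp with h | h
      · exact SameRedB_chart D t⁻¹ hM.chart' hinv P x (by rw [inv_inv]; exact h) c
          (RED.EV_nonunits_mem _ hcm) hc
      · exact h.1
    have hx' : D.rd t⁻¹ ∈ x'.toValuationSubring := by
      rcases hsp' with h | h
      · exact SameRedB_chart D t⁻¹ hM.chart' hinv P' x' (by rw [inv_inv]; exact h) c'
          (RED.EV_nonunits_mem _ hcm') hc'
      · exact h.1
    exact SameRedB_core h1 h2 D t⁻¹ hM.chart' hM.branch' hM.arch P P' x x'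
      ((h3 K F k κ D t hM t⁻¹ (Or.inr rfl) x hx P).1.1 hsp)
      ((h3 K F k κ D t hM t⁻¹ (Or.inr rfl) x' hx' P').1.1 hsp')
      (fun z hz => hcong z hz.locInt)

end Fermat.Agent.FF19.G0
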