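import Fermat.Agent.FF19.G0.Interface2
import Fermat.Agent.S24.PlaceBasic

/-!
# FF19 / G0 : (S6) a function whose reduction is a local parameter is a coordinate on the disc
(`Stmt_Simple`).  helper71.
-/

set_option autoImplicit false

namespace Fermat.Agent.FF19.G0

open AlgebraicCurve Polynomial IntermediateField
open Fermat.Agent.INJ (RedData IsInt Chart Branch Arch)
open Fermat.Agent.RED (Ev)
open Fermat.Agent.MR

/-- `f` lies in the maximal ideal of `P` iff `ord_P f > 0`. -/
theorem Simple_nonunits_iff {K F : Type} [Field K] [Field F] [Algebra K F] (P : Place K F) {f : F}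
    (hf : f ≠ 0) : f ∈ P.toValuationSubring.nonunits ↔ 0 < P.ord f := by
  rw [ValuationSubring.mem_nonunits_iff]
  have h1 : f⁻¹ ∈ P.toValuationSubring ↔ 0 ≤ P.ord f⁻¹ :=
    Fermat.Agent.S24.mem_iff_ord_nonneg P (inv_ne_zero hf)
  rw [Place.ord_inv] at h1
  have h2 : P.toValuationSubring.valuation f⁻¹ ≤ 1 ↔ f⁻¹ ∈ P.toValuationSubring :=
    ValuationSubring.valuation_le_one_iff _ _
  have h0 : P.toValuationSubring.valuation f ≠ 0 := by
    rwa [ne_eq, map_eq_zero]
  rw [map_inv₀, inv_le_one₀ (zero_lt_iff.2 h0)] at h2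
  constructor
  · intro h
    by_contra hc
    have : 1 ≤ P.toValuationSubring.valuation f := h2.2 (h1.2 (by omega))
    exact absurd h (not_lt.2 this)
  · intro h
    by_contra hc
    have := h1.1 (h2.1 (not_lt.1 hc))
    omega

/-- the coefficient of `sp_* E` at `x` as a sum. -/
theorem Simple_spc_eq {K F k κ : Type} [Field K] [Field F] [Algebra K F] [Field k] [Field κ]
    [Algebra k κ] (D : RedData K F k κ) (t : F) (x : Place k κ) (E : Divisor K F) :
    spc D t x E = ∑ P ∈ E.support, (open Classical in if Sp D t P x then E P else 0) := by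
  classical
  unfold spc
  rw [Finsupp.liftAddHom_apply, Finsupp.sum]
  refine Finset.sum_congr rfl fun P _ => ?_
  split_ifs <;> rfl

/-- a sum of nonnegative integers which is `1` has exactly one nonzero term, equal to `1`. -/
theorem Simple_sum_one {ι : Type} (s : Finset ι) (g : ι → ℤ) (h0 : ∀ i ∈ s, 0 ≤ g i)
    (h1 : ∑ i ∈ s, g i = 1) : ∃ i ∈ s, g i = 1 ∧ ∀ j ∈ s, j ≠ i → g j = 0 := by
  classical
  have hex : ∃ i ∈ s, g i ≠ 0 := by
    by_contra hc
    push Not at hc
    rw [Finset.sum_eq_zero hc] at h1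
    exact zero_ne_one h1
  obtain ⟨i, hi, hgi⟩ := hex
  have hsplit := Finset.add_sum_erase s g hi
  have hrest : 0 ≤ ∑ j ∈ s.erase i, g j :=
    Finset.sum_nonneg fun j hj => h0 j (Finset.mem_of_mem_erase hj)
  have hi0 := h0 i hi
  have hgi1 : g i = 1 := by omega
  have hrest0 : ∑ j ∈ s.erase i, g j = 0 := by omega
  refine ⟨i, hi, hgi1, fun j hj hji => ?_⟩
  exact (Finset.sum_eq_zero_iff_of_nonneg
    (fun j hj => h0 j (Finset.mem_of_mem_erase hj))).1 hrest0 j (Finset.mem_erase.2 ⟨hji, hj⟩)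

/-- **(S6)**. -/
theorem stmt_Simple (h1 : Stmt_Std) (h2 : Stmt_FinSupp) (h3 : Stmt_Ord) : Stmt_Simple := by
  classical
  intro K F k κ _ _ _ _ _ _ _ _ _ D t hM x u hu a ha hord
  set f : F := u - algebraMap K F a with hfdef
  have hrd : D.rd f = D.rd u - algebraMap k κ (D.ra a) := by
    rw [hfdef, RedData.rd_sub hu.1 (RedData.algebraMap_mem ha), RedData.rd_algebraMap ha]
  have hrd0 : D.rd f ≠ 0 := by
    intro h
    rw [← hrd, h] at hord
    simp at hord
  have hf0 : f ≠ 0 := by
    intro h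
    rw [h, RedData.rd_zero] at hrd0
    exact hrd0 rfl
  have hstd := h1 K F k κ D t hM.chart hM.branch hM.arch
  obtain ⟨E, hE⟩ := h2 K F t hstd.places f hf0
  have hspc := h3 K F k κ D t hM f E hrd0 hE x
  rw [hrd, hord, Simple_spc_eq] at hspc
  have hnn : ∀ P : Place K F, Sp D t P x → 0 ≤ P.ord f := fun P hP =>
    Fermat.Agent.S24.ord_nonneg_of_mem P
      (P.toValuationSubring.sub_mem (hu.2 P hP) (P.algebraMap_mem' a))
  obtain ⟨P, hPs, hP1, hPu⟩ := Simple_sum_one E.support
    (fun P => if Sp D t P x then E P else 0)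
    (fun P _ => by
      split_ifs with h
      · rw [hE]; exact hnn P h
      · exact le_rfl) hspc
  have hSp : Sp D t P x := by
    by_contra h
    rw [if_neg h] at hP1
    exact zero_ne_one hP1
  rw [if_pos hSp, hE] at hP1
  refine ⟨P, hSp, ?_, hP1, fun P' hP' hev => ?_⟩
  · exact (Simple_nonunits_iff P hf0).2 (by rw [hP1]; exact one_pos)
  · by_contra hne
    have hpos : 0 < P'.ord f := (Simple_nonunits_iff P' hf0).1 hev
    have hmem : P' ∈ E.support := by
      rw [Finsupp.mem_support_iff, hE]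
      exact hpos.ne'
    have := hPu P' hmem hne
    rw [if_pos hP', hE] at this
    omega

end Fermat.Agent.FF19.G0
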