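import Fermat.Agent.FF19.G0.Interface
import Fermat.Agent.RED.EvBasic

/-!
# FF19 / G0 : FFG-SpAut  (helper40)

Automorphisms which act trivially on the special fibre and fix `t` preserve the specialisation.
-/

set_option autoImplicit false

noncomputable section

namespace Fermat.Agent.FF19.G0

open AlgebraicCurve Polynomial IntermediateField
open Fermat.Agent.INJ (RedData IsInt Chart Branch Arch)
open Fermat.Agent.RED (Ev)

section

variable {K F k κ : Type} [Field K] [Field F] [Algebra K F] [Field k] [Field κ] [Algebra k κ]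

/-- a semilinear automorphism fixing `T` maps `K[T]` into itself. -/
theorem SpAut_adjoin (g : SemilinearAut K F) {T : F} (hT : g • T = T) :
    ∀ y ∈ Algebra.adjoin K {T}, g • y ∈ Algebra.adjoin K {T} := by
  intro y hy
  induction hy using Algebra.adjoin_induction with
  | mem x hx =>
    rw [Set.mem_singleton_iff] at hx
    rw [hx, hT]
    exact Algebra.subset_adjoin (Set.mem_singleton T)
  | algebraMap a =>
    rw [SemilinearAut.smul_algebraMap]
    exact Subalgebra.algebraMap_mem _ _
  | add x y _ _ hx hy =>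
    rw [smul_add]
    exact add_mem hx hy
  | mul x y _ _ hx hy =>
    rw [smul_mul']
    exact mul_mem hx hy

/-- integrality over `K[T]` is preserved by a semilinear automorphism fixing `T`. -/
theorem SpAut_isInt (g : SemilinearAut K F) {T : F} (hT : g • T = T) {x : F} (h : IsInt K T x) :
    IsInt K T (g • x) := by
  unfold IsInt at *
  have hmem := SpAut_adjoin g hT
  obtain ⟨p, hp, hpx⟩ := h
  let W : F →+* F := (SemilinearAut.toRingAut g : F →+* F)
  let φ : Algebra.adjoin K {T} →+* Algebra.adjoin K {T} :=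
    { toFun := fun y => ⟨W y.1, hmem y.1 y.2⟩
      map_one' := Subtype.ext (map_one W)
      map_mul' := fun a b => Subtype.ext (map_mul W a.1 b.1)
      map_zero' := Subtype.ext (map_zero W)
      map_add' := fun a b => Subtype.ext (map_add W a.1 b.1) }
  refine ⟨p.map φ, hp.map φ, ?_⟩
  rw [Polynomial.eval₂_map]
  have h2 : (algebraMap (Algebra.adjoin K {T}) F).comp φ =
      W.comp (algebraMap (Algebra.adjoin K {T}) F) := RingHom.ext fun _ => rfl
  rw [h2]
  have h3 := Polynomial.hom_eval₂ p (algebraMap (Algebra.adjoin K {T}) F) W x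
  rw [hpx, map_zero] at h3
  exact h3.symm

/-- one chart. -/
theorem SpAut_chart (D : RedData K F k κ) (T : F) (g : SemilinearAut K F)
    (h1 : ∀ z : F, g • z ∈ D.O ↔ z ∈ D.O) (h2 : ∀ z ∈ D.O, D.rd (g • z) = D.rd z)
    (hT : g • T = T) (P : Place K F) (x : Place k κ) (h : SpC D T P x) : SpC D T (g • P) x := by
  obtain ⟨hx, hz⟩ := h
  refine ⟨hx, fun z hzO hzI => ?_⟩
  have hT' : g⁻¹ • T = T := by
    rw [inv_smul_eq_iff, hT]
  have hz' : g • (g⁻¹ • z) = z := smul_inv_smul g z
  have hzO' : g⁻¹ • z ∈ D.O := (h1 _).1 (by rwa [hz'])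
  obtain ⟨c, hc, hev, hval⟩ := hz (g⁻¹ • z) hzO' (SpAut_isInt g⁻¹ hT' hzI)
  have hcO : algebraMap K F c ∈ D.O := (D.mem_iff c).2 hc
  have hc' : SemilinearAut.baseAut g c ∈ D.A := by
    rw [← D.mem_iff, ← SemilinearAut.smul_algebraMap, h1]
    exact hcO
  have hra : D.ra (SemilinearAut.baseAut g c) = D.ra c := by
    have e := h2 _ hcO
    rw [SemilinearAut.smul_algebraMap, RedData.rd_algebraMap hc', RedData.rd_algebraMap hc] at e
    exact (algebraMap k κ).injective e
  refine ⟨SemilinearAut.baseAut g c, hc', ?_, ?_⟩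
  · have := Fermat.Agent.RED.ev_smul g hev
    rwa [hz'] at this
  · have e := h2 _ hzO'
    rw [hz'] at e
    rw [e, hra]
    exact hval

end

/-- **FFG-SpAut** -/
theorem stmt_SpAut : Stmt_SpAut := by
  intro K F k κ _ _ _ _ _ _ D t g h1 h2 ht P x h
  rcases h with h | h
  · exact Or.inl (SpAut_chart D t g h1 h2 ht P x h)
  · refine Or.inr (SpAut_chart D t⁻¹ g h1 h2 ?_ P x h)
    rw [smul_inv'', ht]

end Fermat.Agent.FF19.G0

end
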