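import Fermat.Agent.FF19.G0.Interface
import Fermat.Agent.MR.Node.PtRes
import Fermat.Agent.MR.Node.RingR
import Fermat.Agent.MR.Node.Kill
import Fermat.Agent.RED.EvBasic

/-!
# FF19 / G0 : FFG-5 (`Stmt_SpCen`) : `SpC` and `PL.Centred`
-/

set_option autoImplicit false

namespace Fermat.Agent.FF19.G0

open AlgebraicCurve Polynomial IntermediateField
open Fermat.Agent.INJ (RedData IsInt Chart Branch Arch)
open Fermat.Agent.RED (Ev)
open Fermat.Agent.MR
open Fermat.Agent.MR.Node (BB Rs ns IsPt IsUnifAt Compat Std)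

/-- a constant which is small at a point is zero. -/
theorem SpCen_const_zero {k κ : Type} [Field k] [Field κ] [Algebra k κ] {x : ValuationSubring κ}
    (hx : IsPt k x) {c : k} (h : x.valuation (algebraMap k κ c) < 1) : c = 0 := by
  by_contra hc
  rw [Node.Kill_val_const hx hc] at h
  exact lt_irrefl _ h

/-- **FFG-5**. -/
theorem stmt_SpCen : Stmt_SpCen := by
  intro K F k κ _ _ _ _ _ _ _ D T hC P x
  have hpt : IsPt k x.toValuationSubring := ⟨x.algebraMap_mem', x.ne_top'⟩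
  -- (b)
  have hb : D.rd T ∈ x.toValuationSubring → PL.Centred D.A (Rx D T x) (nx D T x) P →
      ∀ z ∈ Rx D T x, ∃ c ∈ D.A, Ev P z c ∧
        x.toValuationSubring.valuation (D.rd z - algebraMap k κ (D.ra c)) < 1 := by
    intro hτ hCen z hz
    obtain ⟨hRF, hR2, -⟩ :=
      Node.ringR Node.ptRes K F k κ D D T (D.rd T) hC x.toValuationSubring hpt hτ
    obtain ⟨c', hc'A, hc'⟩ := hRF.res z hz
    obtain ⟨c, hcA, hc, -⟩ := hCen z hz
    obtain ⟨c'', -, hc'', hc''n⟩ := hCen _ (hRF.n_sub _ hc')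
    have e1 : c'' = c - c' :=
      Fermat.Agent.RED.ev_unique hc'' (Fermat.Agent.RED.ev_sub hc (Fermat.Agent.RED.ev_const P c'))
    have h1 : c - c' ∈ D.A.nonunits := e1 ▸ hc''n hc'
    have h2 : D.ra c = D.ra c' := by
      have h3 : D.ra (c - c') = 0 := by
        by_contra h
        exact (Node.Kill_ra_ne_zero_iff (sub_mem hcA hc'A)).1 h h1
      rw [RedData.ra_of_mem (sub_mem hcA hc'A)] at h3
      rw [RedData.ra_of_mem hcA, RedData.ra_of_mem hc'A, ← sub_eq_zero, ← map_sub]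
      exact h3
    refine ⟨c, hcA, hc, ?_⟩
    have h4 := (hR2 _ (hRF.n_sub _ hc')).2.1 hc'
    rwa [RedData.rd_sub (hRF.le₁ z hz) (RedData.algebraMap_mem hc'A), RedData.rd_algebraMap hc'A,
      ← h2] at h4
  refine ⟨?_, hb, ?_⟩
  · -- (a)
    rintro ⟨-, hSp⟩
    have hval : ∀ z ∈ BB D D T, ∃ c ∈ D.A, Ev P z c := by
      intro z hz
      obtain ⟨c, hcA, hc, -⟩ := hSp z hz.2.1 hz.1
      exact ⟨c, hcA, hc⟩
    have hstar : ∀ z ∈ BB D D T, x.toValuationSubring.valuation (D.rd z) < 1 →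
        ∀ c, Ev P z c → c ∈ D.A.nonunits := by
      intro z hz hz1 c hc
      obtain ⟨c', hc'A, hc', hc'1⟩ := hSp z hz.2.1 hz.1
      rw [Fermat.Agent.RED.ev_unique hc hc']
      have h1 : x.toValuationSubring.valuation (algebraMap k κ (D.ra c')) < 1 := by
        have e : algebraMap k κ (D.ra c') = D.rd z - (D.rd z - algebraMap k κ (D.ra c')) := by ring
        rw [e]
        exact Valuation.map_sub_lt _ hz1 hc'1
      have h2 := SpCen_const_zero hpt h1
      by_contra hn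
      exact (Node.Kill_ra_ne_zero_iff hc'A).2 hn h2
    intro z hz
    obtain ⟨u, hu, v, hv, hv1, huv⟩ := hz
    obtain ⟨c, hcA, hc, -⟩ := Node.Kill_frac Node.ptRes hC hpt hval hstar hu hv hv1 huv
    refine ⟨c, hcA, hc, ?_⟩
    rintro ⟨u', hu', v', hv', hv'1, hu'1, huv'⟩
    obtain ⟨c', -, hc', hc'n⟩ := Node.Kill_frac Node.ptRes hC hpt hval hstar hu' hv' hv'1 huv'
    rw [Fermat.Agent.RED.ev_unique hc hc']
    exact hc'n hu'1
  · -- (c)
    intro hτ hCen
    refine ⟨hτ, fun z hzO hzI => hb hτ hCen z ?_⟩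
    exact Node.RingR_BB_le (⟨hzI, hzO, hzO⟩ : z ∈ BB D D T)

end Fermat.Agent.FF19.G0
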