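import Fermat.Agent.FF19.G0.Interface

/-!
# FF19 / G0 : FFG-20 `Stmt_spD` (helper89).  The push-forward of divisors.
-/

set_option autoImplicit false

namespace Fermat.Agent.FF19.G0

open AlgebraicCurve
open Fermat.Agent.INJ (RedData)
open Fermat.Agent.MR

section

variable {K F k κ : Type} [Field K] [Field F] [Algebra K F] [Field k] [Field κ] [Algebra k κ]

theorem SpD_dg_add {K F : Type} [Field K] [Field F] [Algebra K F] (E E' : Divisor K F) :
    PL.dg (E + E') = PL.dg E + PL.dg E' :=
  Finsupp.sum_add_index' (fun _ => rfl) (fun _ _ _ => rfl)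

theorem SpD_dg_single {K F : Type} [Field K] [Field F] [Algebra K F] (P : Place K F) (n : ℤ) :
    PL.dg (Finsupp.single P n) = n :=
  Finsupp.sum_single_index rfl

theorem SpD_dg_zero {K F : Type} [Field K] [Field F] [Algebra K F] :
    PL.dg (0 : Divisor K F) = 0 :=
  Finsupp.sum_zero_index

/-- `sp_*` on a point. -/
theorem SpD_single (D : RedData K F k κ) (t : F)
    (huniq : ∀ (P : Place K F) (x x' : Place k κ), Sp D t P x → Sp D t P x' → x = x')
    (P : Place K F) (x : Place k κ) (n : ℤ) (h : Sp D t P x) :
    spD D t (Finsupp.single P n) = Finsupp.single x n := by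
  classical
  have hex : ∃ x, Sp D t P x := ⟨x, h⟩
  rw [spD, Finsupp.liftAddHom_apply_single, dif_pos hex, Finsupp.singleAddHom_apply,
    huniq P _ x hex.choose_spec h]

theorem SpD_spc_single (D : RedData K F k κ) (t : F) (P : Place K F) (x : Place k κ) (n : ℤ) :
    spc D t x (Finsupp.single P n) = by classical exact if Sp D t P x then n else 0 := by
  classical
  rw [spc, Finsupp.liftAddHom_apply_single]
  split_ifs <;> rfl

end

/-- **FFG-spD**. -/
theorem stmt_spD (h1 : Stmt_SpEx) (h2 : Stmt_SpUniq) : Stmt_spD := by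
  classical
  intro K F k κ _ _ _ _ _ _ _ _ _ D t hM
  have hex := h1 K F k κ D t hM
  have huniq := h2 K F k κ D t hM
  have hs := SpD_single D t huniq
  refine ⟨fun E x => ?_, hs, fun E hE => ?_, fun E => ?_⟩
  · induction E using Finsupp.induction_linear with
    | zero => rw [map_zero, map_zero]; rfl
    | add E E' hE hE' => rw [map_add, map_add, Finsupp.add_apply, hE, hE']
    | single P n =>
      obtain ⟨y, hy⟩ := hex P
      rw [hs P y n hy, SpD_spc_single, Finsupp.single_apply]
      by_cases hyx : y = x
      · subst hyx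
        rw [if_pos rfl, if_pos hy]
      · rw [if_neg hyx, if_neg fun hx => hyx (huniq P y x hy hx)]
  · have hsum : spD D t E = E.sum fun P n => spD D t (Finsupp.single P n) := by
      conv_lhs => rw [← Finsupp.sum_single E]
      exact map_finsuppSum (spD D t) E _
    rw [hsum]
    refine Finset.sum_nonneg fun P _ => ?_
    obtain ⟨y, hy⟩ := hex P
    show 0 ≤ spD D t (Finsupp.single P (E P))
    rw [hs P y _ hy]
    exact Finsupp.single_nonneg.mpr (hE P)
  · induction E using Finsupp.induction_linear with
    | zero => rw [map_zero, SpD_dg_zero, SpD_dg_zero]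
    | add E E' hE hE' => rw [map_add, SpD_dg_add, SpD_dg_add, hE, hE']
    | single P n =>
      obtain ⟨y, hy⟩ := hex P
      rw [hs P y n hy, SpD_dg_single, SpD_dg_single]

end Fermat.Agent.FF19.G0
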