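import Fermat.Agent.FF19.G0.Interface
import Fermat.Agent.RED.R0
import Fermat.Agent.RED.GC
import Fermat.Agent.RED.EvBasic
import Fermat.Agent.MR.Node.ValA
import Fermat.Agent.INJ.All

/-!
# FF19 / G0 : (S1a) every place specialises to a point.
-/

set_option autoImplicit false

namespace Fermat.Agent.FF19.G0

open AlgebraicCurve Polynomial IntermediateField
open Fermat.Agent.INJ (RedData IsInt Chart Branch Arch)
open Fermat.Agent.RED (Ev)
open Fermat.Agent.MR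
open Fermat.Agent.MR.Node (BB Rs ns IsPt IsUnifAt Compat Std)

/-- a place of the chart `T` (`T(P) ∈ A`) specialises to a point of the chart. -/
theorem SpEx_chart (h1 : Stmt_Std) (h2 : Stmt_PtPlace) {K F k κ : Type} [Field K] [IsAlgClosed K]
    [CharZero K] [Field F] [Algebra K F] [Field k] [Field κ] [Algebra k κ]
    (D : RedData K F k κ) (T : F) (hC : Chart D T) (hB : Branch D T) (hA : Arch D)
    (P : Place K F) (c₀ : K) (hc₀ : c₀ ∈ D.A) (hev : Ev P T c₀) :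
    ∃ x : Place k κ, SpC D T P x := by
  have S : Std D D T (D.rd T) := h1 K F k κ D T hC hB hA
  obtain ⟨ρ, hρ, hover⟩ := RED.stmt_R0 RED.stmt_GC K F k κ D T hC hB P ⟨c₀, hc₀, hev⟩
  obtain ⟨x, hx, hxv⟩ := h2 k κ (D.rd T) S.compat.trans S.compat.fin S.compat.sep ρ hρ
  refine ⟨x, hx, fun z hz hzI => ?_⟩
  have hzP := S.places.reg z hzI P (RED.ev_mem hev)
  obtain ⟨c, hc⟩ := S.places.resK P z hzP
  obtain ⟨n, b, hb, hfin⟩ := S.fin
  have hcA : c ∈ D.A := Node.valA K F k κ D D T n b hb hfin P c₀ hev hc₀ z ⟨hzI, hz, hz⟩ c hc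
  refine ⟨c, hcA, hc, ?_⟩
  rw [hover.2 z hz hzI c hc]
  exact hxv _ (S.compat.int₁ z ⟨hzI, hz, hz⟩)

/-- **(S1a)** -/
theorem stmt_SpEx (h1 : Stmt_Std) (h2 : Stmt_PtPlace) : Stmt_SpEx := by
  intro K F k κ _ _ _ _ _ _ _ _ _ D t M P
  have hT : Transcendental K t :=
    (INJ.stmt_Gauss K F k κ D t M.chart.t_mem M.chart.trans).2.2.2.1
  have hfin : FiniteDimensional K⟮t⟯ F := M.chart.fin
  rcases RED.ev_or_inv t hT P t with ⟨c, hc⟩ | h
  · by_cases hcA : c ∈ D.A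
    · obtain ⟨x, hx⟩ := SpEx_chart h1 h2 D t M.chart M.branch M.arch P c hcA hc
      exact ⟨x, Or.inl hx⟩
    · have hc0 : c ≠ 0 := by
        rintro rfl
        exact hcA (zero_mem _)
      have hcA' : c⁻¹ ∈ D.A := (D.A.mem_or_inv_mem c).resolve_left hcA
      obtain ⟨x, hx⟩ := SpEx_chart h1 h2 D t⁻¹ M.chart' M.branch' M.arch P c⁻¹ hcA'
        (RED.ev_inv hc hc0)
      exact ⟨x, Or.inr hx⟩
  · obtain ⟨x, hx⟩ := SpEx_chart h1 h2 D t⁻¹ M.chart' M.branch' M.arch P 0 (zero_mem _) h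
    exact ⟨x, Or.inr hx⟩

end Fermat.Agent.FF19.G0
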