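/-
TEAM FF19 -> S19, block G0 (architect helper48), leaf FFG-10 (helper8, task 1846): `Sp` in a chart containing `x`.
-/
import Fermat.Agent.FF19.G0.Interface

set_option autoImplicit false

namespace Fermat.Agent.FF19.G0

open AlgebraicCurve
open Fermat.Agent.INJ (RedData IsInt Chart Branch Arch)
open Fermat.Agent.RED (Ev)
open Fermat.Agent.MR

/-- the two charts may be exchanged. -/
theorem SpIff_model_inv {K F k κ : Type} [Field K] [Field F] [Algebra K F] [Field k] [Field κ]
    [Algebra k κ] {D : RedData K F k κ} {t : F} (hM : Model D t) : Model D t⁻¹ where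
  chart := hM.chart'
  chart' := by rw [inv_inv]; exact hM.chart
  branch := hM.branch'
  branch' := by rw [inv_inv]; exact hM.branch
  arch := hM.arch

/-- FFG-10. -/
theorem stmt_SpIff (h1 : Stmt_Std) (h2 : Stmt_SpCen) (h3 : Stmt_Glue) : Stmt_SpIff := by
  intro K F k κ _ _ _ _ _ _ _ _ _ D t hM T hT x hx P
  have hSp : Sp D t P x ↔ SpC D T P x := by
    rcases hT with rfl | rfl
    · refine ⟨fun h => ?_, Or.inl⟩
      rcases h with h | h
      · exact h
      · have h' := h3 K F k κ D T⁻¹ (SpIff_model_inv hM) P x h (by rw [inv_inv]; exact hx)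
        rwa [inv_inv] at h'
    · refine ⟨fun h => ?_, Or.inr⟩
      rcases h with h | h
      · exact h3 K F k κ D t hM P x h hx
      · exact h
  have hstd : Node.Std D D T (D.rd T) := by
    rcases hT with rfl | rfl
    · exact h1 K F k κ D T hM.chart hM.branch hM.arch
    · exact h1 K F k κ D t⁻¹ hM.chart' hM.branch' hM.arch
  obtain ⟨ha, -, hc⟩ := h2 K F k κ D T hstd.compat P x
  exact ⟨hSp, hSp.trans ⟨ha, hc hx⟩⟩

end Fermat.Agent.FF19.G0
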