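import Fermat.Agent.FF19.G0.Interface2
import Fermat.Agent.S24.PlaceBasic

/-!
# FF19 / G0 : (S2) the specialisation map is onto (`Stmt_SpSurj`).  helper50.
-/

set_option autoImplicit false

namespace Fermat.Agent.FF19.G0

open AlgebraicCurve Polynomial IntermediateField
open Fermat.Agent.INJ (RedData IsInt Chart Branch Arch)
open Fermat.Agent.RED (Ev)
open Fermat.Agent.MR

/-- if no place specialises to `x`, the coefficient of `sp_* E` at `x` vanishes. -/
theorem SpSurj_spc_eq_zero {K F k κ : Type} [Field K] [Field F] [Algebra K F] [Field k] [Field κ]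
    [Algebra k κ] (D : RedData K F k κ) (t : F) (x : Place k κ)
    (hno : ∀ P : Place K F, ¬ Sp D t P x) (E : Divisor K F) : spc D t x E = 0 := by
  classical
  unfold spc
  rw [Finsupp.liftAddHom_apply, Finsupp.sum]
  refine Finset.sum_eq_zero fun P _ => ?_
  rw [if_neg (hno P)]
  rfl

/-- **(S2)**. -/
theorem stmt_SpSurj (h1 : Stmt_Std) (h2 : Stmt_FinSupp) (h3 : Stmt_Ord) : Stmt_SpSurj := by
  intro K F k κ _ _ _ _ _ _ _ _ _ D t hM x
  obtain ⟨y, hy⟩ := Fermat.Agent.S24.exists_ord_eq_one x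
  have hy0 : y ≠ 0 := by
    rintro rfl
    simp at hy
  obtain ⟨⟨f, hfO⟩, hf⟩ := D.rO_surj y
  have hrd : D.rd f = y := by rw [RedData.rd_of_mem hfO, hf]
  have hf0 : f ≠ 0 := by
    rintro rfl
    rw [RedData.rd_zero] at hrd
    exact hy0 hrd.symm
  have hstd := h1 K F k κ D t hM.chart hM.branch hM.arch
  obtain ⟨E, hE⟩ := h2 K F t hstd.places f hf0
  have hspc := h3 K F k κ D t hM f E (by rw [hrd]; exact hy0) hE x
  rw [hrd, hy] at hspc
  by_contra hno
  push Not at hno
  rw [SpSurj_spc_eq_zero D t x hno E] at hspc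
  exact zero_ne_one hspc

end Fermat.Agent.FF19.G0
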