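import Fermat.Agent.FF19.G0.Interface
import Fermat.Agent.RED.EvBasic

/-!
# FF19 / G0 : (S1b) the specialisation of a place is unique (helper9)
-/

set_option autoImplicit false

namespace Fermat.Agent.FF19.G0

open AlgebraicCurve Polynomial IntermediateField
open Fermat.Agent.INJ (RedData IsInt Chart Branch Arch)
open Fermat.Agent.RED (Ev)
open Fermat.Agent.MR
open Fermat.Agent.MR.Node (BB Rs ns IsPt IsUnifAt Compat Std)

section Aux

variable {K F k κ : Type} [Field K] [Field F] [Algebra K F] [Field k] [Field κ] [Algebra k κ]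

theorem SpUniq_ra_mul (D : RedData K F k κ) {a b : K} (ha : a ∈ D.A) (hb : b ∈ D.A) :
    D.ra (a * b) = D.ra a * D.ra b := by
  rw [RedData.ra_of_mem ha, RedData.ra_of_mem hb, RedData.ra_of_mem (mul_mem ha hb), ← map_mul]
  rfl

theorem SpUniq_ra_one (D : RedData K F k κ) : D.ra 1 = 1 := by
  rw [RedData.ra_of_mem D.A.one_mem]
  exact map_one D.rA

theorem SpUniq_isInt_self (t : F) : IsInt K t t :=
  isIntegral_algebraMap (R := Algebra.adjoin K {t}) (A := F)
    (x := ⟨t, Algebra.subset_adjoin (Set.mem_singleton t)⟩)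

/-- a function with value `a` at `x` vanishes at `x` iff `a = 0`. -/
theorem SpUniq_lt_iff (x : Place k κ) (y : κ) (a : k)
    (h : x.toValuationSubring.valuation (y - algebraMap k κ a) < 1) :
    x.toValuationSubring.valuation y < 1 ↔ a = 0 := by
  constructor
  · intro hy
    by_contra ha
    apply RED.EV_const_not_mem_nonunits x ha
    rw [ValuationSubring.mem_nonunits_iff]
    have e : algebraMap k κ a = y - (y - algebraMap k κ a) := by ring
    rw [e]
    exact (Valuation.map_sub _ _ _).trans_lt (max_lt hy h)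
  · rintro rfl
    simpa using h

/-- uniqueness in one chart. -/
theorem SpUniq_same (h2 : Stmt_PlaceExt) (D : RedData K F k κ) (T : F)
    (hC : Compat D D T (D.rd T)) (P : Place K F) (x x' : Place k κ) (h : SpC D T P x)
    (h' : SpC D T P x') : x = x' := by
  refine h2 k κ (D.rd T) hC.trans hC.fin hC.sep x x' h.1 h'.1 (fun y hy => ?_)
  obtain ⟨ξ, hξ, rfl⟩ := hC.surj₁ y hy
  obtain ⟨c, hc, hev, hv⟩ := h.2 ξ hξ.2.1 hξ.1
  obtain ⟨c', hc', hev', hv'⟩ := h'.2 ξ hξ.2.1 hξ.1
  obtain rfl := RED.ev_unique hev hev'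
  rw [SpUniq_lt_iff x _ _ hv, SpUniq_lt_iff x' _ _ hv']

/-- if `P` specialises to a point of each chart then the first point is in the overlap. -/
theorem SpUniq_cross (D : RedData K F k κ) (t : F) (ht : t ∈ D.O) (ht' : t⁻¹ ∈ D.O)
    (ht0 : D.rd t ≠ 0) (P : Place K F) (x x' : Place k κ) (h : SpC D t P x)
    (h' : SpC D t⁻¹ P x') : D.rd t⁻¹ ∈ x.toValuationSubring := by
  obtain ⟨c, hc, hev, hv⟩ := h.2 t ht (SpUniq_isInt_self t)
  obtain ⟨c', hc', hev', -⟩ := h'.2 t⁻¹ ht' (SpUniq_isInt_self t⁻¹)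
  have ht00 : t ≠ 0 := by
    rintro rfl
    exact ht0 RedData.rd_zero
  have h1 : c * c' = 1 := by
    have h2 := RED.ev_mul hev hev'
    rw [mul_inv_cancel₀ ht00] at h2
    exact RED.ev_unique h2 (RED.ev_one P)
  have hra : D.ra c ≠ 0 := by
    intro h0
    have h2 := SpUniq_ra_mul D hc hc'
    rw [h1, SpUniq_ra_one, h0, zero_mul] at h2
    exact one_ne_zero h2
  have hge : ¬ x.toValuationSubring.valuation (D.rd t) < 1 := fun hlt =>
    hra ((SpUniq_lt_iff x _ _ hv).1 hlt)
  rw [RedData.rd_inv ht0, ← ValuationSubring.valuation_le_one_iff, map_inv₀]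
  exact inv_le_one_of_one_le₀ (not_lt.1 hge)

end Aux

theorem stmt_SpUniq (h1 : Stmt_Std) (h2 : Stmt_PlaceExt) (h3 : Stmt_Glue) : Stmt_SpUniq := by
  intro K F k κ _ _ _ _ _ _ _ _ _ D t hM P x x' hx hx'
  have hC : Compat D D t (D.rd t) := (h1 K F k κ D t hM.chart hM.branch hM.arch).compat
  have hC' : Compat D D t⁻¹ (D.rd t⁻¹) := (h1 K F k κ D t⁻¹ hM.chart' hM.branch' hM.arch).compat
  have ht0 : D.rd t ≠ 0 := fun h0 => hM.chart.trans (by rw [h0]; exact isAlgebraic_zero)
  rcases hx with hx | hx <;> rcases hx' with hx' | hx'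
  · exact SpUniq_same h2 D t hC P x x' hx hx'
  · have hmem := SpUniq_cross D t hM.chart.t_mem hM.chart'.t_mem ht0 P x x' hx hx'
    exact SpUniq_same h2 D t⁻¹ hC' P x x' (h3 K F k κ D t hM P x hx hmem) hx'
  · have hmem := SpUniq_cross D t hM.chart.t_mem hM.chart'.t_mem ht0 P x' x hx' hx
    exact SpUniq_same h2 D t⁻¹ hC' P x x' hx (h3 K F k κ D t hM P x' hx' hmem)
  · exact SpUniq_same h2 D t⁻¹ hC' P x x' hx hx'

end Fermat.Agent.FF19.G0
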