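import Fermat.Agent.FF19.G0.Interface
import Fermat.Agent.MR.Node.RingR
import Fermat.Agent.MR.Node.PtRes
import Fermat.Agent.RED.EvBasic

/-!
# FF19 / G0 : FFG-16 (S5) `Stmt_Val` (helper35)
-/

set_option autoImplicit false

namespace Fermat.Agent.FF19.G0

open AlgebraicCurve Polynomial IntermediateField
open Fermat.Agent.INJ (RedData IsInt Chart Branch Arch)
open Fermat.Agent.RED (Ev)
open Fermat.Agent.MR
open Fermat.Agent.MR.Node (BB Rs ns IsPt IsUnifAt Compat Std)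

/-- a chart containing `x`. -/
theorem Val_exists_chart {K F k κ : Type} [Field K] [Field F] [Algebra K F] [Field k] [Field κ]
    [Algebra k κ] {D : RedData K F k κ} {t : F} (hM : Model D t) (x : Place k κ) :
    ∃ T : F, (T = t ∨ T = t⁻¹) ∧ D.rd T ∈ x.toValuationSubring ∧ Chart D T ∧ Branch D T := by
  have h1 : D.rd t * D.rd t⁻¹ = 1 := by
    rw [← RedData.rd_mul hM.chart.t_mem hM.chart'.t_mem]
    have ht0 : t ≠ 0 := by
      rintro rfl
      have := hM.chart.trans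
      rw [RedData.rd_zero] at this
      exact this isAlgebraic_zero
    rw [mul_inv_cancel₀ ht0, RedData.rd_one]
  rcases x.toValuationSubring.mem_or_inv_mem (D.rd t) with h | h
  · exact ⟨t, Or.inl rfl, h, hM.chart, hM.branch⟩
  · refine ⟨t⁻¹, Or.inr rfl, ?_, hM.chart', hM.branch'⟩
    rwa [← eq_inv_of_mul_eq_one_right h1] at h

theorem stmt_Val (h1 : Stmt_Std) (h2 : Stmt_SpCen) (h3 : Stmt_SpIff) (h4 : Stmt_RegBB) :
    Stmt_Val := by
  intro K F k κ _ _ _ _ _ _ _ _ _ D t hM x f hf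
  obtain ⟨T, hT, hx, hC, hB⟩ := Val_exists_chart hM x
  have hStd : Std D D T (D.rd T) := h1 K F k κ D T hC hB hM.arch
  have hpt : IsPt k x.toValuationSubring := ⟨x.algebraMap_mem', x.ne_top'⟩
  obtain ⟨u, v, hu, hu', hv, hv', hv1, huv⟩ := (h4 K F k κ D t hM T hT x hx).2 f hf
  have hfR : f ∈ Rx D T x := ⟨u, ⟨hu', hu, hu⟩, v, ⟨hv', hv, hv⟩, hv1, huv⟩
  obtain ⟨-, hR2, -⟩ := Node.ringR Node.ptRes K F k κ D D T (D.rd T) hStd.compat
    x.toValuationSubring hpt hx
  refine ⟨(hR2 f hfR).1, ?_⟩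
  intro P c hP hc
  have hcen := ((h3 K F k κ D t hM T hT x hx P).2).1 hP
  obtain ⟨c', hc'A, hc', hlt⟩ := (h2 K F k κ D T hStd.compat P x).2.1 hx hcen f hfR
  have : c = c' := RED.ev_unique hc hc'
  subst this
  exact ⟨hc'A, hlt⟩

end Fermat.Agent.FF19.G0
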