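import Fermat.Agent.FF19.G0.Std
import Fermat.Agent.FF19.G0.N1s
import Fermat.Agent.FF19.G0.Loc
import Fermat.Agent.FF19.G0.OrdC
import Fermat.Agent.FF19.G0.SpCen
import Fermat.Agent.FF19.G0.PtPlace
import Fermat.Agent.FF19.G0.PlaceExt
import Fermat.Agent.FF19.G0.FinSupp
import Fermat.Agent.FF19.G0.Glue
import Fermat.Agent.FF19.G0.SpIff
import Fermat.Agent.FF19.G0.SpEx
import Fermat.Agent.FF19.G0.SpUniq
import Fermat.Agent.FF19.G0.Ord
import Fermat.Agent.FF19.G0.SpSurj
import Fermat.Agent.FF19.G0.RegBB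
import Fermat.Agent.FF19.G0.Val
import Fermat.Agent.FF19.G0.Simple
import Fermat.Agent.FF19.G0.SameRedA
import Fermat.Agent.FF19.G0.SameRedB
import Fermat.Agent.FF19.G0.SpD
import Fermat.Agent.FF19.G0.PoleT
import Fermat.Agent.FF19.G0.Ech
import Fermat.Agent.FF19.G0.Mono
import Fermat.Agent.FF19.G0.Basis
import Fermat.Agent.FF19.G0.LRed
import Fermat.Agent.FF19.G0.LBasis
import Fermat.Agent.FF19.G0.SpAut

/-!
# FF19 / G0 : assembly.  The model dictionary, unconditionally.  (helper48)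
-/

set_option autoImplicit false

namespace Fermat.Agent.FF19.G0

theorem all_Std : Stmt_Std := stmt_Std

theorem all_Loc : Stmt_Loc := stmt_Loc stmt_N1s

theorem all_OrdC : Stmt_OrdC := stmt_OrdC all_Loc

theorem all_SpCen : Stmt_SpCen := stmt_SpCen

theorem all_Glue : Stmt_Glue := stmt_Glue all_Std all_SpCen

theorem all_SpIff : Stmt_SpIff := stmt_SpIff all_Std all_SpCen all_Glue

/-- (S1a) -/
theorem all_SpEx : Stmt_SpEx := stmt_SpEx all_Std stmt_PtPlace

/-- (S1b) -/
theorem all_SpUniq : Stmt_SpUniq := stmt_SpUniq all_Std stmt_PlaceExt all_Glue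

/-- (S4) -/
theorem all_Ord : Stmt_Ord := stmt_Ord all_Std all_OrdC all_SpIff

/-- (S2) -/
theorem all_SpSurj : Stmt_SpSurj := stmt_SpSurj all_Std stmt_FinSupp all_Ord

/-- (S5') -/
theorem all_RegBB : Stmt_RegBB := stmt_RegBB all_Std all_Loc all_SpIff

/-- (S5) -/
theorem all_Val : Stmt_Val := stmt_Val all_Std all_SpCen all_SpIff all_RegBB

/-- (S6) -/
theorem all_Simple : Stmt_Simple := stmt_Simple all_Std stmt_FinSupp all_Ord

theorem all_SameRedA : Stmt_SameRedA := stmt_SameRedA all_Std all_SpCen all_SpIff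

theorem all_SameRedB : Stmt_SameRedB := stmt_SameRedB all_Std stmt_PlaceExt all_SpIff

/-- (S3) -/
theorem all_SameRed : Stmt_SameRed := by
  intro K F k κ _ _ _ _ _ _ _ _ _ D t hM P P'
  constructor
  · intro h
    obtain ⟨x, hx⟩ := all_SpEx K F k κ D t hM P
    obtain ⟨x', hx'⟩ := all_SpEx K F k κ D t hM P'
    have := all_SameRedB K F k κ D t hM P P' x x' h hx hx'
    subst this
    exact ⟨x, hx, hx'⟩
  · rintro ⟨x, hx, hx'⟩
    exact all_SameRedA K F k κ D t hM P P' x hx hx'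

theorem all_spD : Stmt_spD := stmt_spD all_SpEx all_SpUniq

theorem all_PoleT : Stmt_PoleT := stmt_PoleT all_Std stmt_FinSupp all_SpIff all_Ord all_spD

/-- (S7) -/
theorem all_Basis : Stmt_Basis := stmt_Basis stmt_Ech stmt_Mono

/-- (S7') -/
theorem all_LRed : Stmt_LRed := stmt_LRed all_Std stmt_FinSupp all_Ord all_spD

/-- (S7'') -/
theorem all_LBasis : Stmt_LBasis := stmt_LBasis all_Basis all_LRed

theorem all_SpAut : Stmt_SpAut := stmt_SpAut

end Fermat.Agent.FF19.G0
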