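import Fermat.Agent.MR.Node.FinalInterface
import Fermat.Agent.MR.PL.Interface2
import Fermat.Agent.RED.Interface4
import Fermat.Agent.INJ.Interface
import Fermat.Prelude.Def_AlgebraicCurve_Repartitions

/-!
# FF19 / G0 : the model dictionary (abstract form).  Definitions.  (architect helper48)

Setting (that of INJ / RED): `K` algebraically closed of characteristic zero, `D : INJ.RedData K F k κ`
(valuation subrings `D.A ⊆ K`, `D.O ⊆ F`, residue fields `k`, `κ`, total reduction maps `D.ra`, `D.rd`),
`t : F` a coordinate such that BOTH charts `t`, `t⁻¹` are good (`Model D t`).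
NO Galois group, NO inertia, NO subfield of definition appears in this block.

* points of the generic fibre : `Place K F`;  points of the special fibre : `Place k κ`;
* `Sp D t P x` : the place `P` specialises to the point `x`;
* `spc D t x E` : the degree of the part of the divisor `E` which lies over `x`;
* `spD D t E` : the push-forward `sp_* E`;
* `RegAt D t x f` : `f ∈ D.O` is regular on the residue disc of `x`
  (these `f` form the local ring of the model at `x`).
-/

set_option autoImplicit false

noncomputable section

namespace Fermat.Agent.FF19.G0

open AlgebraicCurve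
open Fermat.Agent.INJ (RedData IsInt Chart Branch Arch)
open Fermat.Agent.RED (Ev)

variable {K F k κ : Type} [Field K] [Field F] [Algebra K F] [Field k] [Field κ] [Algebra k κ]

/-- the standing hypotheses: a smooth model glued from the two charts `t`, `t⁻¹`. -/
structure Model (D : RedData K F k κ) (t : F) : Prop where
  chart : Chart D t
  chart' : Chart D t⁻¹
  branch : Branch D t
  branch' : Branch D t⁻¹
  arch : Arch D

/-- `x` lies in the chart `t` (`t̄` is regular at `x`), and `P` specialises to `x`: every
`z ∈ BB_t = {z ∈ D.O integral over K[t]}` is regular at `P`, with value `c ∈ A`, and `c̄` is the value of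
`z̄` at `x`. -/
def SpC (D : RedData K F k κ) (t : F) (P : Place K F) (x : Place k κ) : Prop :=
  D.rd t ∈ x.toValuationSubring ∧
    ∀ z ∈ D.O, IsInt K t z → ∃ c ∈ D.A, Ev P z c ∧
      x.toValuationSubring.valuation (D.rd z - algebraMap k κ (D.ra c)) < 1

/-- **`P` specialises to `x`.** -/
def Sp (D : RedData K F k κ) (t : F) (P : Place K F) (x : Place k κ) : Prop :=
  SpC D t P x ∨ SpC D t⁻¹ P x

open Classical in
/-- the degree of the part of a divisor lying over the point `x` (the coefficient of `sp_* E` at `x`). -/
def spc (D : RedData K F k κ) (t : F) (x : Place k κ) : Divisor K F →+ ℤ :=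
  Finsupp.liftAddHom fun P => if Sp D t P x then AddMonoidHom.id ℤ else 0

open Classical in
/-- the push-forward of divisors `sp_*`. -/
def spD (D : RedData K F k κ) (t : F) : Divisor K F →+ Divisor k κ :=
  Finsupp.liftAddHom fun P =>
    if h : ∃ x, Sp D t P x then Finsupp.singleAddHom h.choose else 0

/-- `f ∈ D.O` is regular on the residue disc of `x`. -/
def RegAt (D : RedData K F k κ) (t : F) (x : Place k κ) (f : F) : Prop :=
  f ∈ D.O ∧ ∀ P : Place K F, Sp D t P x → f ∈ P.toValuationSubring

/-- the local ring (in the sense of `MR/Node`) of the chart `T` at the point `x`. -/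
abbrev Rx (D : RedData K F k κ) (T : F) (x : Place k κ) : Subring F :=
  MR.Node.Rs D D T x.toValuationSubring

/-- its maximal ideal. -/
abbrev nx (D : RedData K F k κ) (T : F) (x : Place k κ) : Set F :=
  MR.Node.ns D D T x.toValuationSubring

end Fermat.Agent.FF19.G0

end
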