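import Fermat.Agent.FF19.G0.Interface

/-!
# FF19 / G0 : interface, part 2 : the two halves of (S3)  (architect helper48)
-/

set_option autoImplicit false

namespace Fermat.Agent.FF19.G0

open AlgebraicCurve
open Fermat.Agent.INJ (RedData)

/-- **(S3 ⇐)** two places with the same specialisation have the same reduction in the sense of `RED`.
Proof.  `t̄ ∈ x`: `SpC D t` for both (`Stmt_SpIff`); `IntOver A t y` implies `y ∈ D.O` (integrally closed,
`A[t] ⊆ D.O`) and `IsInt K t y`; the two values have the same reduction (= the value of `ȳ` at `x`).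
`t̄ ∉ x`: `SpC D t⁻¹` for both, `t⁻¹(P) ∈ 𝔪_A`; for `LocInt A t⁻¹ y` clear denominators:
`s(t⁻¹) y ∈ BB_{t⁻¹}` with `s(0) ∈ Aˣ`, so `y ∈ Rx D t⁻¹ x`; `Stmt_SpCen` (a), (b).
(see `RED/R5.lean` : `R5_over_fin`, `R5_over_loc` for the same manipulations.) -/
def Stmt_SameRedA : Prop :=
  ∀ (K F k κ : Type) [Field K] [IsAlgClosed K] [CharZero K] [Field F] [Algebra K F] [Field k]
    [IsAlgClosed k] [Field κ] [Algebra k κ] (D : RedData K F k κ) (t : F), Model D t →
    ∀ (P P' : Place K F) (x : Place k κ), Sp D t P x → Sp D t P' x → RED.SameRedX D.A t P P'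

/-- **(S3 ⇒)**.
Proof.  `SameRedFin A t P P'`: `t(P), t(P') ∈ A`, so `SpC D t P x`, `SpC D t P' x'` (the other chart is
excluded or glued by `Stmt_Glue`).  `RED.stmt_GC` (`int_of_mem`): every `z ∈ BB_t` is a test function, so
`z(P) ≡ z(P')`; with P7: `|y|_x < 1 ↔ |y|_{x'} < 1` for all `y ∈ B̄_t`; `Stmt_PlaceExt`.
`SameRedLoc A t⁻¹ P P'`: the same in the chart `t⁻¹` (`IntOver` implies `LocInt`). -/
def Stmt_SameRedB : Prop :=
  ∀ (K F k κ : Type) [Field K] [IsAlgClosed K] [CharZero K] [Field F] [Algebra K F] [Field k]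
    [IsAlgClosed k] [Field κ] [Algebra k κ] (D : RedData K F k κ) (t : F), Model D t →
    ∀ (P P' : Place K F) (x x' : Place k κ), RED.SameRedX D.A t P P' → Sp D t P x → Sp D t P' x' →
      x = x'

end Fermat.Agent.FF19.G0
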