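import Fermat.Agent.FF19.G0.Interface
import Fermat.Agent.MR.Node.PtUnif
import Fermat.Agent.RED.EvBasic

/-!
# FF19 / G0 : FFG-15 (S5') `Stmt_RegBB` (helper53)
-/

set_option autoImplicit false

namespace Fermat.Agent.FF19.G0

open AlgebraicCurve Polynomial IntermediateField
open Fermat.Agent.INJ (RedData IsInt Chart Branch Arch)
open Fermat.Agent.RED (Ev)
open Fermat.Agent.MR
open Fermat.Agent.MR.Node (BB Rs ns IsPt IsUnifAt Compat Std)

theorem stmt_RegBB (h1 : Stmt_Std) (h2 : Stmt_Loc) (h3 : Stmt_SpIff) : Stmt_RegBB := by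
  intro K F k κ _ _ _ _ _ _ _ _ _ D t hM T hT x hx
  have hCB : Chart D T ∧ Branch D T := by
    rcases hT with rfl | rfl
    · exact ⟨hM.chart, hM.branch⟩
    · exact ⟨hM.chart', hM.branch'⟩
  have hStd : Std D D T (D.rd T) := h1 K F k κ D T hCB.1 hCB.2 hM.arch
  have hpt : IsPt k x.toValuationSubring := ⟨x.algebraMap_mem', x.ne_top'⟩
  refine ⟨?_, ?_⟩
  · intro z hz hzi
    refine ⟨hz, ?_⟩
    intro P hP
    have hsp : SpC D T P x := ((h3 K F k κ D t hM T hT x hx P).1).1 hP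
    obtain ⟨c, -, hc, -⟩ := hsp.2 z hz hzi
    exact RED.ev_mem hc
  · intro f hf
    obtain ⟨⟨π, hπi, hπ⟩, -, -⟩ := Node.ptUnif k κ (D.rd T) hStd.compat.trans hStd.compat.fin
      hStd.compat.sep x.toValuationSubring hpt hx
    obtain ⟨ϑ, hϑ, rfl⟩ := hStd.compat.surj₁ π hπi
    have hL := h2 K F k κ D T (D.rd T) hStd x.toValuationSubring hpt hx ϑ hϑ hπ
    have hfR : f ∈ Rs D D T x.toValuationSubring :=
      hL.reg f hf.1 hf.1 (fun P hcen => hf.2 P (((h3 K F k κ D t hM T hT x hx P).2).2 hcen))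
    obtain ⟨u, hu, v, hv, hv1, huv⟩ := hfR
    exact ⟨u, v, hu.2.1, hu.1, hv.2.1, hv.1, hv1, huv⟩

end Fermat.Agent.FF19.G0
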