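import Fermat.Agent.FF19.G0.Interface
import Fermat.Agent.INJ.All
import Fermat.Agent.MR.Node.PlaceFactsAbs

/-!
# FF19 / G0 / FFG-01 : `Stmt_Std`  (task 1837, helper72)

A good chart gives the standing hypotheses `Node.Std D D T (rd T)` of `MR/Node` (with `D₂ = D₁`).
-/

set_option autoImplicit false

namespace Fermat.Agent.FF19.G0

open AlgebraicCurve Polynomial IntermediateField
open Fermat.Agent.INJ (RedData IsInt Chart Branch Arch)
open Fermat.Agent.MR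
open Fermat.Agent.MR.Node (BB Compat Std)

theorem stmt_Std : Stmt_Std := by
  intro K F k κ _ _ _ _ _ _ _ _ D T hC hB hA
  obtain ⟨-, -, -, hTtr, -⟩ := INJ.stmt_Gauss K F k κ D T hC.t_mem hC.trans
  have hfinF : FiniteDimensional K⟮T⟯ F := hC.fin
  have hTint : IsInt K T T :=
    isIntegral_algebraMap (R := Algebra.adjoin K {T})
      (x := ⟨T, Algebra.subset_adjoin (Set.mem_singleton T)⟩)
  have hdeg := (INJ.all_Trace K F k κ D T hC).1
  have hpos : 0 < Module.finrank K⟮T⟯ F := Module.finrank_pos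
  have hfinκ : FiniteDimensional k⟮D.rd T⟯ κ :=
    Module.finite_of_finrank_pos (hdeg ▸ hpos)
  refine ⟨⟨rfl, fun _ => rfl, hC.trans, hfinκ, hC.sep, ?_, ?_, ?_, ?_⟩, hA,
    ⟨hTint, hC.t_mem, hC.t_mem⟩, Node.placeFacts K F T hTtr hfinF, ?_⟩
  · exact fun z hz => INJ.all_IntRed K F k κ D T hC z hz.2.1 hz.1
  · exact fun z hz => INJ.all_IntRed K F k κ D T hC z hz.2.1 hz.1
  · intro f hf
    obtain ⟨y, hyO, hyi, hy⟩ := INJ.all_Normal K F k κ D T hC hB f hf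
    exact ⟨y, ⟨hyi, hyO, hyO⟩, hy⟩
  · intro f hf
    obtain ⟨y, hyO, hyi, hy⟩ := INJ.all_Normal K F k κ D T hC hB f hf
    exact ⟨y, ⟨hyi, hyO, hyO⟩, hy⟩
  · obtain ⟨b, hb, hspan, hli⟩ := INJ.all_BBasis K F k κ D T hC
    refine ⟨_, b, fun i => ⟨(hb i).2, (hb i).1, (hb i).1⟩, fun z hz => ?_⟩
    obtain ⟨P, hP⟩ := (INJ.P8_mem_span_iff T b z).1 (hspan z hz.1)
    obtain ⟨Q, hQ, -⟩ := INJ.P8_coord INJ.stmt_Gauss INJ.all_Ortho D T hC.t_mem hC.trans b
      (fun i => (hb i).1) hli P (hP ▸ hz.2.1)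
    refine ⟨P, fun i m => ?_, hP⟩
    rw [← hQ i, coeff_map]
    exact ((Q i).coeff m).2

end Fermat.Agent.FF19.G0
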